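/-
S55 (Poitou–Tate), package C1 (finite-group cohomology tools), helper84.

The abstract Herbrand quotient.  For an abelian group `B` with two endomorphisms `f, g` such that
`f ∘ g = 0 = g ∘ f` put `hIdx f g = [ker f : im g]` (`0` if infinite).  For a subgroup `A` stable
under `f` and `g` we prove, by pure index calculus (no connecting homomorphism is needed),

  `h₀(A) * h₀(B/A) * h₁(B) = h₁(A) * h₁(B/A) * h₀(B)`,

where `h₀ = [ker f : im g]`, `h₁ = [ker g : im f]`, together with the two-out-of-three finiteness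
statement, and `h₀ = h₁` for finite groups.
-/
import Mathlib

set_option autoImplicit false

namespace Fermat.Agent.S55.H84

open AddSubgroup

section Internal

variable {B : Type*} [AddCommGroup B]

/-- `[ker f : im g]`, with value `0` if the index is infinite. -/
noncomputable def hIdx (f g : B →+ B) : ℕ := g.range.relIndex f.ker

/-- `[ker f ∩ A : g A]` : the index `hIdx` of the restrictions to a stable subgroup `A`. -/
noncomputable def hIdxSub (A : AddSubgroup B) (f g : B →+ B) : ℕ := (A.map g).relIndex (f.ker ⊓ A)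

/-- `[f⁻¹ A : im g + A]` : the index `hIdx` of the maps induced on `B ⧸ A`. -/
noncomputable def hIdxQuot (A : AddSubgroup B) (f g : B →+ B) : ℕ :=
  (g.range ⊔ A).relIndex (A.comap f)

/-- auxiliary index `[ker f : im g + (ker f ∩ A)]` -/
noncomputable def hAlpha (A : AddSubgroup B) (f g : B →+ B) : ℕ :=
  (g.range ⊔ (f.ker ⊓ A)).relIndex f.ker

/-- auxiliary index `[ker f ∩ A : im g ∩ A]` -/
noncomputable def hBeta (A : AddSubgroup B) (f g : B →+ B) : ℕ := g.range.relIndex (f.ker ⊓ A)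

/-- auxiliary index `[im g ∩ A : g A]` -/
noncomputable def hGamma (A : AddSubgroup B) (g : B →+ B) : ℕ := (A.map g).relIndex (g.range ⊓ A)

variable {f g : B →+ B}

theorem range_le_ker (hfg : ∀ b, f (g b) = 0) : g.range ≤ f.ker := by
  rintro _ ⟨b, rfl⟩
  exact hfg b

theorem hIdx_eq (A : AddSubgroup B) (hfg : ∀ b, f (g b) = 0) :
    hIdx f g = hBeta A f g * hAlpha A f g := by
  unfold hIdx hBeta hAlpha
  have h1 : g.range ≤ g.range ⊔ (f.ker ⊓ A) := le_sup_left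
  have h2 : g.range ⊔ (f.ker ⊓ A) ≤ f.ker := sup_le (range_le_ker hfg) inf_le_left
  rw [← relIndex_mul_relIndex _ _ _ h1 h2, relIndex_sup_left]

theorem hIdxSub_eq (A : AddSubgroup B) (hfg : ∀ b, f (g b) = 0) (hgA : ∀ a ∈ A, g a ∈ A) :
    hIdxSub A f g = hGamma A g * hBeta A f g := by
  unfold hIdxSub hGamma hBeta
  have h1 : A.map g ≤ g.range ⊓ A := by
    rintro _ ⟨a, ha, rfl⟩
    exact ⟨⟨a, rfl⟩, hgA a ha⟩
  have h2 : g.range ⊓ A ≤ f.ker ⊓ A := inf_le_inf_right _ (range_le_ker hfg)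
  have h3 : (g.range ⊓ A).relIndex (f.ker ⊓ A) = g.range.relIndex (f.ker ⊓ A) := by
    rw [← inf_relIndex_right (g.range ⊓ A), ← inf_relIndex_right g.range]
    have : g.range ⊓ A ⊓ (f.ker ⊓ A) = g.range ⊓ (f.ker ⊓ A) := by
      apply le_antisymm
      · exact le_inf (inf_le_left.trans inf_le_left) inf_le_right
      · exact le_inf (le_inf inf_le_left (inf_le_right.trans inf_le_right)) inf_le_right
    rw [this]
  rw [← relIndex_mul_relIndex _ _ _ h1 h2, h3]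

theorem hIdxQuot_eq (A : AddSubgroup B) (hfg : ∀ b, f (g b) = 0) (hfA : ∀ a ∈ A, f a ∈ A) :
    hIdxQuot A f g = hAlpha A f g * hGamma A f := by
  unfold hIdxQuot hAlpha hGamma
  have hgk : g.range ≤ f.ker := range_le_ker hfg
  have hkc : f.ker ≤ A.comap f := fun x hx => by
    rw [mem_comap, (AddMonoidHom.mem_ker).1 hx]; exact A.zero_mem
  have hAc : A ≤ A.comap f := fun a ha => hfA a ha
  have h1 : g.range ⊔ A ≤ A ⊔ f.ker := sup_le (hgk.trans le_sup_right) le_sup_left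
  have h2 : A ⊔ f.ker ≤ A.comap f := sup_le hAc hkc
  rw [← relIndex_mul_relIndex _ _ _ h1 h2]
  congr 1
  · -- `[A + ker f : im g + A] = [ker f : im g + (ker f ∩ A)]`
    have e1 : A ⊔ f.ker = (g.range ⊔ A) ⊔ f.ker := by
      rw [sup_comm g.range A, sup_assoc, sup_of_le_right hgk]
    rw [e1, relIndex_sup_left, ← inf_relIndex_right, sup_inf_assoc_of_le _ hgk, inf_comm A]
  · -- `[f⁻¹ A : A + ker f] = [im f ∩ A : f A]`
    have e := relIndex_map_map f A (A.comap f)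
    rw [map_comap_eq, sup_of_le_left hkc] at e
    rw [e]

/-- **Herbrand's lemma**, internal form, as an identity of indices (each `0` when infinite). -/
theorem hIdx_mul_internal (A : AddSubgroup B) (hfg : ∀ b, f (g b) = 0) (hgf : ∀ b, g (f b) = 0)
    (hfA : ∀ a ∈ A, f a ∈ A) (hgA : ∀ a ∈ A, g a ∈ A) :
    hIdxSub A f g * hIdxQuot A f g * hIdx g f = hIdxSub A g f * hIdxQuot A g f * hIdx f g := by
  rw [hIdxSub_eq A hfg hgA, hIdxQuot_eq A hfg hfA, hIdx_eq A hgf, hIdxSub_eq A hgf hfA,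
    hIdxQuot_eq A hgf hgA, hIdx_eq A hfg]
  ring

/-- Two-out-of-three: if the indices of `A` and of `B ⧸ A` are finite, so are those of `B`. -/
theorem hIdx_ne_zero_of_sub_quot (A : AddSubgroup B) (hfg : ∀ b, f (g b) = 0)
    (hgf : ∀ b, g (f b) = 0) (hfA : ∀ a ∈ A, f a ∈ A) (hgA : ∀ a ∈ A, g a ∈ A)
    (h1 : hIdxSub A f g ≠ 0) (h2 : hIdxSub A g f ≠ 0) (h3 : hIdxQuot A f g ≠ 0)
    (h4 : hIdxQuot A g f ≠ 0) : hIdx f g ≠ 0 ∧ hIdx g f ≠ 0 := by
  rw [hIdxSub_eq A hfg hgA] at h1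
  rw [hIdxSub_eq A hgf hfA] at h2
  rw [hIdxQuot_eq A hfg hfA] at h3
  rw [hIdxQuot_eq A hgf hgA] at h4
  rw [hIdx_eq A hfg, hIdx_eq A hgf]
  exact ⟨mul_ne_zero (right_ne_zero_of_mul h1) (left_ne_zero_of_mul h3),
    mul_ne_zero (right_ne_zero_of_mul h2) (left_ne_zero_of_mul h4)⟩

/-- Two-out-of-three: if the indices of `A` and of `B` are finite, so are those of `B ⧸ A`. -/
theorem hIdxQuot_ne_zero_of_sub (A : AddSubgroup B) (hfg : ∀ b, f (g b) = 0)
    (hgf : ∀ b, g (f b) = 0) (hfA : ∀ a ∈ A, f a ∈ A) (hgA : ∀ a ∈ A, g a ∈ A)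
    (h1 : hIdxSub A f g ≠ 0) (h2 : hIdxSub A g f ≠ 0) (h3 : hIdx f g ≠ 0)
    (h4 : hIdx g f ≠ 0) : hIdxQuot A f g ≠ 0 ∧ hIdxQuot A g f ≠ 0 := by
  rw [hIdxSub_eq A hfg hgA] at h1
  rw [hIdxSub_eq A hgf hfA] at h2
  rw [hIdx_eq A hfg] at h3
  rw [hIdx_eq A hgf] at h4
  rw [hIdxQuot_eq A hfg hfA, hIdxQuot_eq A hgf hgA]
  exact ⟨mul_ne_zero (right_ne_zero_of_mul h3) (left_ne_zero_of_mul h2),
    mul_ne_zero (right_ne_zero_of_mul h4) (left_ne_zero_of_mul h1)⟩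

/-- Two-out-of-three: if the indices of `B` and of `B ⧸ A` are finite, so are those of `A`. -/
theorem hIdxSub_ne_zero_of_quot (A : AddSubgroup B) (hfg : ∀ b, f (g b) = 0)
    (hgf : ∀ b, g (f b) = 0) (hfA : ∀ a ∈ A, f a ∈ A) (hgA : ∀ a ∈ A, g a ∈ A)
    (h1 : hIdxQuot A f g ≠ 0) (h2 : hIdxQuot A g f ≠ 0) (h3 : hIdx f g ≠ 0)
    (h4 : hIdx g f ≠ 0) : hIdxSub A f g ≠ 0 ∧ hIdxSub A g f ≠ 0 := by
  rw [hIdxQuot_eq A hfg hfA] at h1
  rw [hIdxQuot_eq A hgf hgA] at h2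
  rw [hIdx_eq A hfg] at h3
  rw [hIdx_eq A hgf] at h4
  rw [hIdxSub_eq A hfg hgA, hIdxSub_eq A hgf hfA]
  exact ⟨mul_ne_zero (right_ne_zero_of_mul h2) (left_ne_zero_of_mul h3),
    mul_ne_zero (right_ne_zero_of_mul h1) (left_ne_zero_of_mul h4)⟩

/-- For a finite group the two indices agree (Herbrand quotient `1`). -/
theorem hIdx_eq_of_finite [Finite B] (hfg : ∀ b, f (g b) = 0) (hgf : ∀ b, g (f b) = 0) :
    hIdx f g = hIdx g f ∧ hIdx f g ≠ 0 := by
  have hf : Nat.card f.range * hIdx g f = Nat.card g.ker := by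
    have := relIndex_mul_relIndex (⊥ : AddSubgroup B) f.range g.ker bot_le (range_le_ker hgf)
    rwa [relIndex_bot_left, relIndex_bot_left] at this
  have hg : Nat.card g.range * hIdx f g = Nat.card f.ker := by
    have := relIndex_mul_relIndex (⊥ : AddSubgroup B) g.range f.ker bot_le (range_le_ker hfg)
    rwa [relIndex_bot_left, relIndex_bot_left] at this
  have h1 : Nat.card f.ker * Nat.card f.range = Nat.card B := by
    rw [← AddSubgroup.index_ker]; exact f.ker.card_mul_index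
  have h2 : Nat.card g.ker * Nat.card g.range = Nat.card B := by
    rw [← AddSubgroup.index_ker]; exact g.ker.card_mul_index
  have hB : Nat.card B ≠ 0 := Nat.card_pos.ne'
  have hfr : Nat.card f.range ≠ 0 := Nat.card_pos.ne'
  have hgr : Nat.card g.range ≠ 0 := Nat.card_pos.ne'
  have key : Nat.card f.range * Nat.card g.range * hIdx f g
      = Nat.card f.range * Nat.card g.range * hIdx g f := by
    calc Nat.card f.range * Nat.card g.range * hIdx f g
        = (Nat.card g.range * hIdx f g) * Nat.card f.range := by ring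
      _ = Nat.card B := by rw [hg, h1]
      _ = (Nat.card f.range * hIdx g f) * Nat.card g.range := by rw [hf, h2]
      _ = Nat.card f.range * Nat.card g.range * hIdx g f := by ring
  refine ⟨Nat.eq_of_mul_eq_mul_left (Nat.pos_of_ne_zero (mul_ne_zero hfr hgr)) key, ?_⟩
  intro h0
  rw [h0, mul_zero] at hg
  exact (Nat.card_pos (α := f.ker)).ne' hg.symm

end Internal

section External

variable {A B C : Type*} [AddCommGroup A] [AddCommGroup B] [AddCommGroup C]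
  {fA gA : A →+ A} {fB gB : B →+ B} {fC gC : C →+ C} {i : A →+ B} {π : B →+ C}

theorem hIdx_eq_hIdxSub (hi : Function.Injective i) (hif : ∀ a, i (fA a) = fB (i a))
    (hig : ∀ a, i (gA a) = gB (i a)) : hIdx fA gA = hIdxSub i.range fB gB := by
  unfold hIdx hIdxSub
  rw [← relIndex_map_map_of_injective gA.range fA.ker hi]
  congr 1
  · ext x
    constructor
    · rintro ⟨_, ⟨a, rfl⟩, rfl⟩
      exact ⟨i a, ⟨a, rfl⟩, (hig a).symm⟩
    · rintro ⟨_, ⟨a, rfl⟩, rfl⟩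
      exact ⟨gA a, ⟨a, rfl⟩, hig a⟩
  · ext x
    constructor
    · rintro ⟨a, ha, rfl⟩
      refine ⟨?_, ⟨a, rfl⟩⟩
      have ha' : fA a = 0 := ha
      show fB (i a) = 0
      rw [← hif, ha', map_zero]
    · rintro ⟨hx, ⟨a, rfl⟩⟩
      have hx' : fB (i a) = 0 := hx
      refine ⟨a, ?_, rfl⟩
      show fA a = 0
      apply hi
      rw [hif, hx', map_zero]

theorem hIdx_eq_hIdxQuot (hπ : Function.Surjective π) (hπf : ∀ b, π (fB b) = fC (π b))
    (hπg : ∀ b, π (gB b) = gC (π b)) : hIdx fC gC = hIdxQuot π.ker fB gB := by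
  unfold hIdx hIdxQuot
  have e1 : gB.range ⊔ π.ker = gC.range.comap π := by
    ext x
    rw [mem_comap]
    constructor
    · intro hx
      obtain ⟨y, ⟨b, rfl⟩, z, hz, rfl⟩ := mem_sup.1 hx
      refine ⟨π b, ?_⟩
      rw [map_add, (AddMonoidHom.mem_ker).1 hz, add_zero, hπg]
    · rintro ⟨c, hc⟩
      obtain ⟨b, rfl⟩ := hπ c
      have : x = gB b + (x - gB b) := by abel
      rw [this]
      refine add_mem (mem_sup_left ⟨b, rfl⟩) (mem_sup_right ?_)
      rw [AddMonoidHom.mem_ker, map_sub, hπg, hc, sub_self]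
  have e2 : π.ker.comap fB = fC.ker.comap π := by
    ext x
    simp only [mem_comap, AddMonoidHom.mem_ker, hπf]
  rw [e1, e2, relIndex_comap, map_comap_eq_self_of_surjective hπ]

/-- **Herbrand's lemma** for a short exact sequence `0 → A → B → C → 0` of abelian groups with
compatible pairs of endomorphisms `(f, g)`, `f ∘ g = 0 = g ∘ f` on `B`:
`h₀(A) h₀(C) h₁(B) = h₁(A) h₁(C) h₀(B)` (indices, `0` when infinite). -/
theorem hIdx_mul_of_exact (hi : Function.Injective i) (hπ : Function.Surjective π)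
    (hex : i.range = π.ker) (hif : ∀ a, i (fA a) = fB (i a)) (hig : ∀ a, i (gA a) = gB (i a))
    (hπf : ∀ b, π (fB b) = fC (π b)) (hπg : ∀ b, π (gB b) = gC (π b))
    (hfg : ∀ b, fB (gB b) = 0) (hgf : ∀ b, gB (fB b) = 0) :
    hIdx fA gA * hIdx fC gC * hIdx gB fB = hIdx gA fA * hIdx gC fC * hIdx fB gB := by
  have hfA : ∀ a ∈ i.range, fB a ∈ i.range := by
    rintro _ ⟨a, rfl⟩; exact ⟨fA a, hif a⟩
  have hgA : ∀ a ∈ i.range, gB a ∈ i.range := by
    rintro _ ⟨a, rfl⟩; exact ⟨gA a, hig a⟩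
  rw [hIdx_eq_hIdxSub hi hif hig, hIdx_eq_hIdxSub hi hig hif, hIdx_eq_hIdxQuot hπ hπf hπg,
    hIdx_eq_hIdxQuot hπ hπg hπf, ← hex]
  exact hIdx_mul_internal i.range hfg hgf hfA hgA

/-- Two-out-of-three finiteness in Herbrand's lemma: from `A` and `C` to `B`. -/
theorem hIdx_ne_zero_of_exact (hi : Function.Injective i) (hπ : Function.Surjective π)
    (hex : i.range = π.ker) (hif : ∀ a, i (fA a) = fB (i a)) (hig : ∀ a, i (gA a) = gB (i a))
    (hπf : ∀ b, π (fB b) = fC (π b)) (hπg : ∀ b, π (gB b) = gC (π b))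
    (hfg : ∀ b, fB (gB b) = 0) (hgf : ∀ b, gB (fB b) = 0)
    (h1 : hIdx fA gA ≠ 0) (h2 : hIdx gA fA ≠ 0) (h3 : hIdx fC gC ≠ 0) (h4 : hIdx gC fC ≠ 0) :
    hIdx fB gB ≠ 0 ∧ hIdx gB fB ≠ 0 := by
  have hfA : ∀ a ∈ i.range, fB a ∈ i.range := by
    rintro _ ⟨a, rfl⟩; exact ⟨fA a, hif a⟩
  have hgA : ∀ a ∈ i.range, gB a ∈ i.range := by
    rintro _ ⟨a, rfl⟩; exact ⟨gA a, hig a⟩
  rw [hIdx_eq_hIdxSub hi hif hig] at h1
  rw [hIdx_eq_hIdxSub hi hig hif] at h2
  rw [hIdx_eq_hIdxQuot hπ hπf hπg, ← hex] at h3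
  rw [hIdx_eq_hIdxQuot hπ hπg hπf, ← hex] at h4
  exact hIdx_ne_zero_of_sub_quot i.range hfg hgf hfA hgA h1 h2 h3 h4

/-- Two-out-of-three finiteness in Herbrand's lemma: from `A` and `B` to `C`. -/
theorem hIdx_ne_zero_of_exact_right (hi : Function.Injective i) (hπ : Function.Surjective π)
    (hex : i.range = π.ker) (hif : ∀ a, i (fA a) = fB (i a)) (hig : ∀ a, i (gA a) = gB (i a))
    (hπf : ∀ b, π (fB b) = fC (π b)) (hπg : ∀ b, π (gB b) = gC (π b))
    (hfg : ∀ b, fB (gB b) = 0) (hgf : ∀ b, gB (fB b) = 0)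
    (h1 : hIdx fA gA ≠ 0) (h2 : hIdx gA fA ≠ 0) (h3 : hIdx fB gB ≠ 0) (h4 : hIdx gB fB ≠ 0) :
    hIdx fC gC ≠ 0 ∧ hIdx gC fC ≠ 0 := by
  have hfA : ∀ a ∈ i.range, fB a ∈ i.range := by
    rintro _ ⟨a, rfl⟩; exact ⟨fA a, hif a⟩
  have hgA : ∀ a ∈ i.range, gB a ∈ i.range := by
    rintro _ ⟨a, rfl⟩; exact ⟨gA a, hig a⟩
  rw [hIdx_eq_hIdxSub hi hif hig] at h1
  rw [hIdx_eq_hIdxSub hi hig hif] at h2
  rw [hIdx_eq_hIdxQuot hπ hπf hπg, hIdx_eq_hIdxQuot hπ hπg hπf, ← hex]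
  exact hIdxQuot_ne_zero_of_sub i.range hfg hgf hfA hgA h1 h2 h3 h4

/-- Two-out-of-three finiteness in Herbrand's lemma: from `B` and `C` to `A`. -/
theorem hIdx_ne_zero_of_exact_left (hi : Function.Injective i) (hπ : Function.Surjective π)
    (hex : i.range = π.ker) (hif : ∀ a, i (fA a) = fB (i a)) (hig : ∀ a, i (gA a) = gB (i a))
    (hπf : ∀ b, π (fB b) = fC (π b)) (hπg : ∀ b, π (gB b) = gC (π b))
    (hfg : ∀ b, fB (gB b) = 0) (hgf : ∀ b, gB (fB b) = 0)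
    (h1 : hIdx fC gC ≠ 0) (h2 : hIdx gC fC ≠ 0) (h3 : hIdx fB gB ≠ 0) (h4 : hIdx gB fB ≠ 0) :
    hIdx fA gA ≠ 0 ∧ hIdx gA fA ≠ 0 := by
  have hfA : ∀ a ∈ i.range, fB a ∈ i.range := by
    rintro _ ⟨a, rfl⟩; exact ⟨fA a, hif a⟩
  have hgA : ∀ a ∈ i.range, gB a ∈ i.range := by
    rintro _ ⟨a, rfl⟩; exact ⟨gA a, hig a⟩
  rw [hIdx_eq_hIdxQuot hπ hπf hπg, ← hex] at h1
  rw [hIdx_eq_hIdxQuot hπ hπg hπf, ← hex] at h2
  rw [hIdx_eq_hIdxSub hi hif hig, hIdx_eq_hIdxSub hi hig hif]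
  exact hIdxSub_ne_zero_of_quot i.range hfg hgf hfA hgA h1 h2 h3 h4

end External

end Fermat.Agent.S55.H84
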