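/-
S55 (Poitou–Tate), package C1, helper84: the cohomology of a finite cyclic group in terms of the
abstract Herbrand indices of `Herbrand.lean`:
`#Hⁱ(G, A) = [ker (ρ g - 1) : im N]` for even `i ≥ 2`, `#Hⁱ(G, A) = [ker N : im (ρ g - 1)]` for odd `i`.
-/
import Mathlib
import Fermat.Agent.S55.H84.Herbrand

set_option autoImplicit false

universe u

open CategoryTheory

namespace Fermat.Agent.S55.H84

/-- The cardinality of the homology of a short complex of modules is the index `[ker g : im f]`
(`0` when infinite). -/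
theorem natCard_homology {k : Type u} [Ring k] (S : ShortComplex (ModuleCat.{u} k)) :
    Nat.card S.homology =
      (S.f.hom.toAddMonoidHom.range).relIndex (S.g.hom.toAddMonoidHom.ker) := by
  rw [Nat.card_congr S.moduleCatHomologyIso.toLinearEquiv.toEquiv]
  change Nat.card ((LinearMap.ker S.g.hom) ⧸ (LinearMap.range S.moduleCatToCycles)) = _
  change Nat.card ((LinearMap.ker S.g.hom) ⧸ (LinearMap.range S.moduleCatToCycles).toAddSubgroup) = _
  rw [← AddSubgroup.index_eq_card, AddSubgroup.relIndex]
  congr 1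
  ext x
  constructor
  · rintro ⟨y, rfl⟩
    exact ⟨y, rfl⟩
  · rintro ⟨y, hy⟩
    exact ⟨y, Subtype.ext hy⟩

section Cyclic

open Rep Rep.FiniteCyclicGroup

variable {k G : Type u} [CommRing k] [CommGroup G] [Fintype G] (A : Rep k G) (g : G)

/-- `ρ(g) - 1` as an additive endomorphism of the underlying module of a representation. -/
noncomputable def subHom : A.V →+ A.V := (applyAsHom A g - 𝟙 A).hom.toLinearMap.toAddMonoidHom

/-- the norm `∑ ρ(h)` as an additive endomorphism of the underlying module of a representation. -/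
noncomputable def normHom : A.V →+ A.V := A.norm.hom.toLinearMap.toAddMonoidHom

omit [Fintype G] in
theorem subHom_apply (a : A.V) : subHom A g a = A.ρ g a - a := by
  simp [subHom, sub_hom, applyAsHom]

theorem normHom_apply (a : A.V) : normHom A a = ∑ h : G, A.ρ h a := by
  simp [normHom, Rep.norm, Representation.norm]

theorem subHom_normHom (a : A.V) : subHom A g (normHom A a) = 0 := by
  exact ShortComplex.moduleCat_zero_apply (normHomCompSub A g) a

theorem normHom_subHom (a : A.V) : normHom A (subHom A g a) = 0 := by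
  exact ShortComplex.moduleCat_zero_apply (subCompNormHom A g) a

variable (hg : ∀ x, x ∈ Subgroup.zpowers g)

include hg in
/-- `#Hⁱ(G, A) = [ker (ρ g - 1) : im N]` for `G` finite cyclic generated by `g`, `i ≥ 2` even. -/
theorem natCard_groupCohomology_even (i : ℕ) [NeZero i] (hi : Even i) :
    Nat.card (groupCohomology A i) = hIdx (subHom A g) (normHom A) := by
  rw [Nat.card_congr (groupCohomologyIsoEven A g hg i hi).toLinearEquiv.toEquiv, natCard_homology]
  rfl

include hg in
/-- `#Hⁱ(G, A) = [ker N : im (ρ g - 1)]` for `G` finite cyclic generated by `g`, `i` odd. -/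
theorem natCard_groupCohomology_odd (i : ℕ) (hi : Odd i) :
    Nat.card (groupCohomology A i) = hIdx (normHom A) (subHom A g) := by
  rw [Nat.card_congr (groupCohomologyIsoOdd A g hg i hi).toLinearEquiv.toEquiv, natCard_homology]
  rfl

end Cyclic

end Fermat.Agent.S55.H84

namespace Fermat.Agent.S55.H84

section CyclicExact

open Rep Rep.FiniteCyclicGroup

variable {k G : Type u} [CommRing k] [CommGroup G] [Fintype G]

omit [Fintype G] in
theorem subHom_comm {A B : Rep k G} (φ : A ⟶ B) (g : G) (a : A.V) :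
    φ.hom (subHom A g a) = subHom B g (φ.hom a) := by
  rw [subHom_apply, subHom_apply, map_sub, Rep.hom_comm_apply]

theorem normHom_comm {A B : Rep k G} (φ : A ⟶ B) (a : A.V) :
    φ.hom (normHom A a) = normHom B (φ.hom a) := by
  rw [normHom_apply, normHom_apply, map_sum]
  exact Finset.sum_congr rfl fun h _ => Rep.hom_comm_apply φ h a

variable {S : ShortComplex (Rep k G)} (hS : S.ShortExact) (g : G)
  (hg : ∀ x, x ∈ Subgroup.zpowers g)

include hS in
/-- **Herbrand's lemma**, abstract indices, for a short exact sequence of representations of a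
finite cyclic group. -/
theorem hIdx_mul_of_shortExact :
    hIdx (subHom S.X₁ g) (normHom S.X₁) * hIdx (subHom S.X₃ g) (normHom S.X₃) *
        hIdx (normHom S.X₂) (subHom S.X₂ g) =
      hIdx (normHom S.X₁) (subHom S.X₁ g) * hIdx (normHom S.X₃) (subHom S.X₃ g) *
        hIdx (subHom S.X₂ g) (normHom S.X₂) := by
  have hinj : Function.Injective S.f.hom := (Rep.mono_iff_injective S.f).1 hS.mono_f
  have hsurj : Function.Surjective S.g.hom := (Rep.epi_iff_surjective S.g).1 hS.epi_g
  have hex : LinearMap.range S.f.hom.toLinearMap = LinearMap.ker S.g.hom.toLinearMap :=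
    (hS.exact.map (forget₂ (Rep k G) (ModuleCat k))).moduleCat_range_eq_ker
  refine hIdx_mul_of_exact (i := S.f.hom.toLinearMap.toAddMonoidHom)
    (π := S.g.hom.toLinearMap.toAddMonoidHom) hinj hsurj ?_ (fun a => subHom_comm S.f g a)
    (fun a => normHom_comm S.f a) (fun b => subHom_comm S.g g b) (fun b => normHom_comm S.g b)
    (subHom_normHom S.X₂ g) (normHom_subHom S.X₂ g)
  ext x
  exact SetLike.ext_iff.1 hex x

include hS hg in
/-- **Herbrand's lemma** for group cohomology of a finite cyclic group: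
`#H²(X₁) * #H²(X₃) * #H¹(X₂) = #H¹(X₁) * #H¹(X₃) * #H²(X₂)` (cardinalities `0` when infinite). -/
theorem natCard_H2_mul_of_shortExact :
    Nat.card (groupCohomology S.X₁ 2) * Nat.card (groupCohomology S.X₃ 2) *
        Nat.card (groupCohomology S.X₂ 1) =
      Nat.card (groupCohomology S.X₁ 1) * Nat.card (groupCohomology S.X₃ 1) *
        Nat.card (groupCohomology S.X₂ 2) := by
  rw [natCard_groupCohomology_even _ g hg 2 (by decide), natCard_groupCohomology_even _ g hg 2
    (by decide), natCard_groupCohomology_even _ g hg 2 (by decide),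
    natCard_groupCohomology_odd _ g hg 1 (by decide), natCard_groupCohomology_odd _ g hg 1
    (by decide), natCard_groupCohomology_odd _ g hg 1 (by decide)]
  exact hIdx_mul_of_shortExact hS g

include hg in
/-- For a finite module over a finite cyclic group, `#H²(G, A) = #H¹(G, A)` (Herbrand quotient
`1`). -/
theorem natCard_H2_eq_H1_of_finite (A : Rep k G) [Finite A.V] :
    Nat.card (groupCohomology A 2) = Nat.card (groupCohomology A 1) ∧
      Nat.card (groupCohomology A 2) ≠ 0 := by
  rw [natCard_groupCohomology_even _ g hg 2 (by decide),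
    natCard_groupCohomology_odd _ g hg 1 (by decide)]
  exact hIdx_eq_of_finite (subHom_normHom A g) (normHom_subHom A g)

include hS hg in
/-- Two-out-of-three in Herbrand's lemma: `X₁`, `X₃` have finite `H¹`, `H²` ⟹ so has `X₂`. -/
theorem natCard_ne_zero_of_shortExact
    (h1 : Nat.card (groupCohomology S.X₁ 2) ≠ 0) (h2 : Nat.card (groupCohomology S.X₁ 1) ≠ 0)
    (h3 : Nat.card (groupCohomology S.X₃ 2) ≠ 0) (h4 : Nat.card (groupCohomology S.X₃ 1) ≠ 0) :
    Nat.card (groupCohomology S.X₂ 2) ≠ 0 ∧ Nat.card (groupCohomology S.X₂ 1) ≠ 0 := by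
  rw [natCard_groupCohomology_even _ g hg 2 (by decide)] at h1 h3 ⊢
  rw [natCard_groupCohomology_odd _ g hg 1 (by decide)] at h2 h4 ⊢
  have hinj : Function.Injective S.f.hom := (Rep.mono_iff_injective S.f).1 hS.mono_f
  have hsurj : Function.Surjective S.g.hom := (Rep.epi_iff_surjective S.g).1 hS.epi_g
  have hex : LinearMap.range S.f.hom.toLinearMap = LinearMap.ker S.g.hom.toLinearMap :=
    (hS.exact.map (forget₂ (Rep k G) (ModuleCat k))).moduleCat_range_eq_ker
  refine hIdx_ne_zero_of_exact (i := S.f.hom.toLinearMap.toAddMonoidHom)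
    (π := S.g.hom.toLinearMap.toAddMonoidHom) hinj hsurj ?_ (fun a => subHom_comm S.f g a)
    (fun a => normHom_comm S.f a) (fun b => subHom_comm S.g g b) (fun b => normHom_comm S.g b)
    (subHom_normHom S.X₂ g) (normHom_subHom S.X₂ g) h1 h2 h3 h4
  ext x
  exact SetLike.ext_iff.1 hex x

include hS hg in
/-- Two-out-of-three in Herbrand's lemma: `X₁`, `X₂` have finite `H¹`, `H²` ⟹ so has `X₃`. -/
theorem natCard_ne_zero_of_shortExact_right
    (h1 : Nat.card (groupCohomology S.X₁ 2) ≠ 0) (h2 : Nat.card (groupCohomology S.X₁ 1) ≠ 0)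
    (h3 : Nat.card (groupCohomology S.X₂ 2) ≠ 0) (h4 : Nat.card (groupCohomology S.X₂ 1) ≠ 0) :
    Nat.card (groupCohomology S.X₃ 2) ≠ 0 ∧ Nat.card (groupCohomology S.X₃ 1) ≠ 0 := by
  rw [natCard_groupCohomology_even _ g hg 2 (by decide)] at h1 h3 ⊢
  rw [natCard_groupCohomology_odd _ g hg 1 (by decide)] at h2 h4 ⊢
  have hinj : Function.Injective S.f.hom := (Rep.mono_iff_injective S.f).1 hS.mono_f
  have hsurj : Function.Surjective S.g.hom := (Rep.epi_iff_surjective S.g).1 hS.epi_g
  have hex : LinearMap.range S.f.hom.toLinearMap = LinearMap.ker S.g.hom.toLinearMap :=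
    (hS.exact.map (forget₂ (Rep k G) (ModuleCat k))).moduleCat_range_eq_ker
  refine hIdx_ne_zero_of_exact_right (i := S.f.hom.toLinearMap.toAddMonoidHom)
    (π := S.g.hom.toLinearMap.toAddMonoidHom) hinj hsurj ?_ (fun a => subHom_comm S.f g a)
    (fun a => normHom_comm S.f a) (fun b => subHom_comm S.g g b) (fun b => normHom_comm S.g b)
    (subHom_normHom S.X₂ g) (normHom_subHom S.X₂ g) h1 h2 h3 h4
  ext x
  exact SetLike.ext_iff.1 hex x

include hS hg in
/-- Two-out-of-three in Herbrand's lemma: `X₂`, `X₃` have finite `H¹`, `H²` ⟹ so has `X₁`. -/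
theorem natCard_ne_zero_of_shortExact_left
    (h1 : Nat.card (groupCohomology S.X₃ 2) ≠ 0) (h2 : Nat.card (groupCohomology S.X₃ 1) ≠ 0)
    (h3 : Nat.card (groupCohomology S.X₂ 2) ≠ 0) (h4 : Nat.card (groupCohomology S.X₂ 1) ≠ 0) :
    Nat.card (groupCohomology S.X₁ 2) ≠ 0 ∧ Nat.card (groupCohomology S.X₁ 1) ≠ 0 := by
  rw [natCard_groupCohomology_even _ g hg 2 (by decide)] at h1 h3 ⊢
  rw [natCard_groupCohomology_odd _ g hg 1 (by decide)] at h2 h4 ⊢
  have hinj : Function.Injective S.f.hom := (Rep.mono_iff_injective S.f).1 hS.mono_f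
  have hsurj : Function.Surjective S.g.hom := (Rep.epi_iff_surjective S.g).1 hS.epi_g
  have hex : LinearMap.range S.f.hom.toLinearMap = LinearMap.ker S.g.hom.toLinearMap :=
    (hS.exact.map (forget₂ (Rep k G) (ModuleCat k))).moduleCat_range_eq_ker
  refine hIdx_ne_zero_of_exact_left (i := S.f.hom.toLinearMap.toAddMonoidHom)
    (π := S.g.hom.toLinearMap.toAddMonoidHom) hinj hsurj ?_ (fun a => subHom_comm S.f g a)
    (fun a => normHom_comm S.f a) (fun b => subHom_comm S.g g b) (fun b => normHom_comm S.g b)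
    (subHom_normHom S.X₂ g) (normHom_subHom S.X₂ g) h1 h2 h3 h4
  ext x
  exact SetLike.ext_iff.1 hex x

include hS hg in
/-- Herbrand quotients agree up to a finite quotient: if `X₃` is finite then
`#H²(X₁) * #H¹(X₂) = #H¹(X₁) * #H²(X₂)`. -/
theorem natCard_H2_mul_H1_of_finite_quot [Finite S.X₃.V] :
    Nat.card (groupCohomology S.X₁ 2) * Nat.card (groupCohomology S.X₂ 1) =
      Nat.card (groupCohomology S.X₁ 1) * Nat.card (groupCohomology S.X₂ 2) := by
  have h := natCard_H2_mul_of_shortExact hS g hg
  obtain ⟨h3, h3'⟩ := natCard_H2_eq_H1_of_finite g hg S.X₃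
  rw [← h3] at h
  have e : Nat.card (groupCohomology S.X₃ 2) * (Nat.card (groupCohomology S.X₁ 2) *
      Nat.card (groupCohomology S.X₂ 1)) = Nat.card (groupCohomology S.X₃ 2) *
      (Nat.card (groupCohomology S.X₁ 1) * Nat.card (groupCohomology S.X₂ 2)) := by
    calc _ = Nat.card (groupCohomology S.X₁ 2) * Nat.card (groupCohomology S.X₃ 2) *
          Nat.card (groupCohomology S.X₂ 1) := by ring
      _ = _ := h
      _ = _ := by ring
  exact Nat.eq_of_mul_eq_mul_left (Nat.pos_of_ne_zero h3') e

include hS hg in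
/-- Herbrand quotients agree up to a finite submodule: if `X₁` is finite then
`#H²(X₃) * #H¹(X₂) = #H¹(X₃) * #H²(X₂)`. -/
theorem natCard_H2_mul_H1_of_finite_sub [Finite S.X₁.V] :
    Nat.card (groupCohomology S.X₃ 2) * Nat.card (groupCohomology S.X₂ 1) =
      Nat.card (groupCohomology S.X₃ 1) * Nat.card (groupCohomology S.X₂ 2) := by
  have h := natCard_H2_mul_of_shortExact hS g hg
  obtain ⟨h3, h3'⟩ := natCard_H2_eq_H1_of_finite g hg S.X₁
  rw [← h3] at h
  have e : Nat.card (groupCohomology S.X₁ 2) * (Nat.card (groupCohomology S.X₃ 2) *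
      Nat.card (groupCohomology S.X₂ 1)) = Nat.card (groupCohomology S.X₁ 2) *
      (Nat.card (groupCohomology S.X₃ 1) * Nat.card (groupCohomology S.X₂ 2)) := by
    calc _ = Nat.card (groupCohomology S.X₁ 2) * Nat.card (groupCohomology S.X₃ 2) *
          Nat.card (groupCohomology S.X₂ 1) := by ring
      _ = _ := h
      _ = _ := by ring
  exact Nat.eq_of_mul_eq_mul_left (Nat.pos_of_ne_zero h3') e

end CyclicExact

end Fermat.Agent.S55.H84
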