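/-
S55 (Poitou–Tate), package C1, helper84: elementary calculus of inhomogeneous 2-cocycles relative
to a subgroup.  These are the cochain-level computations behind
* C1-b ("the kernel of restriction to a subgroup of index `m` is killed by `m`"), and
* C1-c (inflation–restriction in degree 2).
Everything is stated for `A : Rep k G` and plain functions `G × G → A`, `G → A`.
-/
import Mathlib

set_option autoImplicit false

universe u

open CategoryTheory

namespace Fermat.Agent.S55.H84

variable {k G : Type u} [CommRing k] [Group G] (A : Rep k G)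

/-- The inhomogeneous 2-cocycle identity (the form of `groupCohomology.mem_cocycles₂_iff`). -/
def IsCoc2 (f : G × G → A) : Prop :=
  ∀ g h j : G, f (g * h, j) + f (g, h) = A.ρ g (f (h, j)) + f (g, h * j)

/-- The coboundary of a 1-cochain (the formula of `groupCohomology.d₁₂`). -/
def dOne (u : G → A) : G × G → A := fun p => A.ρ p.1 (u p.2) - u (p.1 * p.2) + u p.1

theorem dOne_apply (u : G → A) (g h : G) : dOne A u (g, h) = A.ρ g (u h) - u (g * h) + u g := rfl

variable {A}

theorem isCoc2_dOne (u : G → A) : IsCoc2 A (dOne A u) := by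
  intro g h j
  simp only [dOne_apply, map_add, map_sub, map_mul, Module.End.mul_apply, mul_assoc]
  abel

theorem IsCoc2.sub {f f' : G × G → A} (hf : IsCoc2 A f) (hf' : IsCoc2 A f') :
    IsCoc2 A (f - f') := by
  intro g h j
  simp only [Pi.sub_apply, map_sub]
  have h1 := hf g h j
  have h2 := hf' g h j
  rw [sub_add_sub_comm, h1, h2, sub_add_sub_comm]

theorem IsCoc2.map_one_left {f : G × G → A} (hf : IsCoc2 A f) (h0 : f (1, 1) = 0) (g : G) :
    f (1, g) = 0 := by
  have := hf 1 1 g
  simp only [one_mul, map_one, Module.End.one_apply, h0, add_zero] at this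
  simpa using this

theorem IsCoc2.map_one_right {f : G × G → A} (hf : IsCoc2 A f) (h0 : f (1, 1) = 0) (g : G) :
    f (g, 1) = 0 := by
  have := hf g 1 1
  simp only [mul_one, h0, map_zero, zero_add] at this
  simpa using this

/-- A system of representatives for the left cosets of `S`, as a function `t : G → G`. -/
structure IsRep (S : Subgroup G) (t : G → G) : Prop where
  mem : ∀ g, (t g)⁻¹ * g ∈ S
  mul : ∀ g, ∀ s ∈ S, t (g * s) = t g
  one : t 1 = 1

theorem exists_isRep (S : Subgroup G) : ∃ t : G → G, IsRep S t := by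
  classical
  refine ⟨fun g => if g ∈ S then 1 else Quotient.out (g : G ⧸ S), ⟨fun g => ?_, fun g s hs => ?_, ?_⟩⟩
  · by_cases hg : g ∈ S
    · simp [hg]
    · simp only [hg, if_false]
      exact QuotientGroup.eq.1 (QuotientGroup.out_eq' (g : G ⧸ S))
  · have h1 : g * s ∈ S ↔ g ∈ S := ⟨fun h => by simpa using S.mul_mem h (S.inv_mem hs),
      fun h => S.mul_mem h hs⟩
    have h2 : ((g * s : G) : G ⧸ S) = (g : G ⧸ S) := by
      rw [QuotientGroup.eq]
      have e : (g * s)⁻¹ * g = s⁻¹ := by group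
      rw [e]
      exact S.inv_mem hs
    simp only [h1, h2]
  · simp [S.one_mem]

theorem IsRep.apply_self {S : Subgroup G} {t : G → G} (ht : IsRep S t) (g : G) : t (t g) = t g := by
  have := ht.mul (t g) _ (ht.mem g)
  rw [mul_inv_cancel_left] at this
  exact this.symm

theorem IsRep.apply_of_mem {S : Subgroup G} {t : G → G} (ht : IsRep S t) {s : G} (hs : s ∈ S) :
    t s = 1 := by
  have := ht.mul 1 s hs
  rwa [one_mul, ht.one] at this

section RightNormal

variable {S : Subgroup G} {t : G → G} (ht : IsRep S t) {f : G × G → A} (hf : IsCoc2 A f)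
  (hS : ∀ s ∈ S, ∀ s' ∈ S, f (s, s') = 0) (a : G → A)

/-- The correcting 1-cochain `u (t s) = a t - f (t, s)`. -/
def corr (t : G → G) (f : G × G → A) (a : G → A) : G → A :=
  fun g => a (t g) - f (t g, (t g)⁻¹ * g)

include ht hf hS in
theorem corr_mul_right (g : G) {s : G} (hs : s ∈ S) :
    corr t f a (g * s) = corr t f a g - f (g, s) := by
  have h := hf (t g) ((t g)⁻¹ * g) s
  rw [mul_inv_cancel_left, hS _ (ht.mem g) _ hs, map_zero, zero_add] at h
  show a (t (g * s)) - f (t (g * s), (t (g * s))⁻¹ * (g * s)) =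
    a (t g) - f (t g, (t g)⁻¹ * g) - f (g, s)
  rw [ht.mul g s hs, ← mul_assoc, ← h]
  abel

include ht hf hS in
theorem corr_of_mem (ha : a 1 = 0) {s : G} (hs : s ∈ S) : corr t f a s = 0 := by
  have h0 : f (1, 1) = 0 := hS 1 S.one_mem 1 S.one_mem
  show a (t s) - f (t s, (t s)⁻¹ * s) = 0
  rw [ht.apply_of_mem hs, ha, hf.map_one_left h0, sub_zero]

include ht hf hS in
/-- After subtracting `d (corr)` the cocycle vanishes on `G × S`. -/
theorem sub_dOne_corr_right (ha : a 1 = 0) (g : G) {s : G} (hs : s ∈ S) :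
    (f - dOne A (corr t f a)) (g, s) = 0 := by
  simp only [Pi.sub_apply, dOne_apply, corr_mul_right ht hf hS a g hs,
    corr_of_mem ht hf hS a ha hs, map_zero]
  abel

end RightNormal

section Descent

variable {S : Subgroup G} {f : G × G → A} (hf : IsCoc2 A f)
  (hr : ∀ g, ∀ s ∈ S, f (g, s) = 0)

include hf hr in
theorem IsCoc2.mul_right_of_vanish (g h : G) {s : G} (hs : s ∈ S) : f (g, h * s) = f (g, h) := by
  have := hf g h s
  rw [hr _ s hs, hr _ s hs, map_zero, zero_add, zero_add] at this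
  exact this.symm

variable [S.Normal] (hl : ∀ s ∈ S, ∀ g, f (s, g) = 0)

include hf hr hl in
theorem IsCoc2.mul_left_of_vanish (g h : G) {s : G} (hs : s ∈ S) : f (g * s, h) = f (g, h) := by
  have := hf g s h
  rw [hr _ s hs, hl s hs, map_zero, zero_add, add_zero] at this
  rw [this]
  have e : s * h = h * (h⁻¹ * s * h) := by group
  rw [e]
  exact hf.mul_right_of_vanish hr g h (Subgroup.Normal.conj_mem' ‹_› s hs h)

include hf hr hl in
theorem IsCoc2.smul_of_vanish (g h : G) {s : G} (hs : s ∈ S) : A.ρ s (f (g, h)) = f (g, h) := by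
  have := hf s g h
  rw [hl s hs, hl s hs, add_zero, add_zero] at this
  rw [← this]
  have e : s * g = g * (g⁻¹ * s * g) := by group
  rw [e]
  exact hf.mul_left_of_vanish hr hl g h (Subgroup.Normal.conj_mem' ‹_› s hs g)

end Descent

section LeftNormal

variable {S : Subgroup G} [S.Normal] {t : G → G} (ht : IsRep S t) {f : G × G → A}
  (hf : IsCoc2 A f) (hS : ∀ s ∈ S, ∀ s' ∈ S, f (s, s') = 0)

/-- The 1-cocycle of `S` measuring the failure of left normalisation of `f` at `g`. -/
def gam (f : G × G → A) (g s : G) : A := f (s, g) - f (g, g⁻¹ * s * g)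

include hf hS in
theorem gam_mul (g : G) {s s' : G} (hs : s ∈ S) (hs' : s' ∈ S) :
    gam f g (s * s') = A.ρ s (gam f g s') + gam f g s := by
  have c1 := hf s s' g
  have c2 := hf g (g⁻¹ * s * g) (g⁻¹ * s' * g)
  have c3 := hf s g (g⁻¹ * s' * g)
  have e1 : g * (g⁻¹ * s * g) = s * g := by group
  have e2 : g⁻¹ * s * g * (g⁻¹ * s' * g) = g⁻¹ * (s * s') * g := by group
  have e3 : g * (g⁻¹ * s' * g) = s' * g := by group
  rw [hS s hs s' hs'] at c1
  rw [e1, e2, hS _ (Subgroup.Normal.conj_mem' ‹_› s hs g) _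
    (Subgroup.Normal.conj_mem' ‹_› s' hs' g), map_zero] at c2
  rw [e3] at c3
  simp only [gam, map_sub]
  linear_combination (norm := abel) c1 + c2 - c3

theorem gam_one_right (hf : IsCoc2 A f) (h0 : f (1, 1) = 0) (s : G) : gam f 1 s = 0 := by
  simp [gam, hf.map_one_left h0, hf.map_one_right h0]

variable (a : G → A) (ha : ∀ g, ∀ s ∈ S, gam f g s = A.ρ s (a g) - a g)

include ht hf hS ha in
theorem corr_mul_left (g : G) {s : G} (hs : s ∈ S) :
    corr t f a (s * g) = A.ρ s (corr t f a g) - f (s, g) := by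
  set τ := t g with hτ
  have hm : τ⁻¹ * g ∈ S := ht.mem g
  have hconj : τ⁻¹ * s * τ ∈ S := Subgroup.Normal.conj_mem' ‹_› s hs τ
  have e0 : s * g = τ * (τ⁻¹ * s * τ * (τ⁻¹ * g)) := by group
  have hts : t (s * g) = τ := by
    rw [e0, ht.mul τ _ (S.mul_mem hconj hm), hτ, ht.apply_self]
  have c1 := ha τ s hs
  have c2 := hf s τ (τ⁻¹ * g)
  have c3 := hf τ (τ⁻¹ * s * τ) (τ⁻¹ * g)
  have e1 : τ * (τ⁻¹ * g) = g := by group
  have e2 : τ * (τ⁻¹ * s * τ) = s * τ := by group
  have e3 : τ⁻¹ * s * τ * (τ⁻¹ * g) = τ⁻¹ * (s * g) := by group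
  rw [e1] at c2
  rw [e2, e3, hS _ hconj _ hm, map_zero] at c3
  show a (t (s * g)) - f (t (s * g), (t (s * g))⁻¹ * (s * g)) =
    A.ρ s (a (t g) - f (t g, (t g)⁻¹ * g)) - f (s, g)
  rw [hts, ← hτ, map_sub]
  simp only [gam] at c1
  linear_combination (norm := abel) c1 - c2 + c3

include ht hf hS ha in
/-- After subtracting `d (corr)` the cocycle vanishes on `S × G`. -/
theorem sub_dOne_corr_left (ha1 : a 1 = 0) (g : G) {s : G} (hs : s ∈ S) :
    (f - dOne A (corr t f a)) (s, g) = 0 := by
  simp only [Pi.sub_apply, dOne_apply, corr_mul_left ht hf hS a ha g hs,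
    corr_of_mem ht hf hS a ha1 hs]
  abel

end LeftNormal

end Fermat.Agent.S55.H84
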