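/-
S55 (Poitou–Tate), package C1, leaf C1-c (helper84): inflation–restriction in degree 2.
For `S ⊴ G` and `A : Rep k G` with `H¹(S, A) = 0` the sequence
`0 ⟶ H²(G ⧸ S, A^S) ⟶ H²(G, A) ⟶ H²(S, A)` is exact.
-/
import Mathlib
import Fermat.Agent.S55.H84.Coc2

set_option autoImplicit false

universe u

open CategoryTheory groupCohomology Rep

namespace Fermat.Agent.S55.H84

section Cochain

variable {k G : Type u} [CommRing k] [Group G] {A : Rep k G}

theorem dOne_add (u v : G → A) : dOne A (u + v) = dOne A u + dOne A v := by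
  funext p
  simp only [dOne, Pi.add_apply, map_add]
  abel

section Normalise

variable {S : Subgroup G} [S.Normal]

/-- **Normalisation.**  Assume `H¹(S, A) = 0` (in the explicit form `hH1`).  A 2-cocycle `f` of `G`
whose restriction to `S × S` is the coboundary of `b` is cohomologous to a cocycle vanishing on
`G × S` and on `S × G`. -/
theorem exists_normalised
    (hH1 : ∀ c : G → A, (∀ s ∈ S, ∀ s' ∈ S, c (s * s') = A.ρ s (c s') + c s) →
      ∃ y : A, ∀ s ∈ S, c s = A.ρ s y - y)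
    {f : G × G → A} (hf : IsCoc2 A f) (b : G → A)
    (hb : ∀ s ∈ S, ∀ s' ∈ S, f (s, s') = dOne A b (s, s')) :
    ∃ u : G → A, (∀ g, ∀ s ∈ S, (f - dOne A u) (g, s) = 0) ∧
      (∀ s ∈ S, ∀ g, (f - dOne A u) (s, g) = 0) := by
  classical
  obtain ⟨t, ht⟩ := exists_isRep S
  set f₁ : G × G → A := f - dOne A b with hf₁
  have hc₁ : IsCoc2 A f₁ := hf.sub (isCoc2_dOne b)
  have hS₁ : ∀ s ∈ S, ∀ s' ∈ S, f₁ (s, s') = 0 := fun s hs s' hs' => by
    simp [hf₁, hb s hs s' hs']
  have h11 : f₁ (1, 1) = 0 := hS₁ 1 S.one_mem 1 S.one_mem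
  have hex : ∀ g : G, ∃ y : A, ∀ s ∈ S, gam f₁ g s = A.ρ s y - y := fun g =>
    hH1 (gam f₁ g) fun s hs s' hs' => gam_mul hc₁ hS₁ g hs hs'
  choose y hy using hex
  set a : G → A := fun g => if g = 1 then 0 else y g with ha_def
  have ha1 : a 1 = 0 := by simp [ha_def]
  have ha : ∀ g, ∀ s ∈ S, gam f₁ g s = A.ρ s (a g) - a g := by
    intro g s hs
    by_cases hg : g = 1
    · subst hg
      simp [ha_def, gam_one_right hc₁ h11]
    · simp only [ha_def, hg, if_false]
      exact hy g s hs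
  refine ⟨b + corr t f₁ a, fun g s hs => ?_, fun s hs g => ?_⟩
  · have := sub_dOne_corr_right ht hc₁ hS₁ a ha1 g hs
    rw [dOne_add, ← sub_sub]
    exact this
  · have := sub_dOne_corr_left ht hc₁ hS₁ a ha ha1 g hs
    rw [dOne_add, ← sub_sub]
    exact this

end Normalise

section Primitive

variable {S : Subgroup G} [S.Normal]

/-- **Descent of a primitive.**  Assume `H¹(S, A) = 0` (explicit form `hH1`).  If an "inflated"
2-cocycle `φ` (bi-invariant under `S`, with `φ (1, 1)` fixed by `S`) is the coboundary of a 1-cochain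
of `G`, then it is the coboundary of a right-`S`-invariant 1-cochain with `S`-invariant values. -/
theorem exists_descended_primitive
    (hH1 : ∀ c : G → A, (∀ s ∈ S, ∀ s' ∈ S, c (s * s') = A.ρ s (c s') + c s) →
      ∃ y : A, ∀ s ∈ S, c s = A.ρ s y - y)
    {φ : G × G → A} (hφ : IsCoc2 A φ)
    (hl : ∀ g h, ∀ s ∈ S, φ (g * s, h) = φ (g, h))
    (hr : ∀ g h, ∀ s ∈ S, φ (g, h * s) = φ (g, h))
    (hinv : ∀ s ∈ S, A.ρ s (φ (1, 1)) = φ (1, 1))
    (ψ : G → A) (hψ : dOne A ψ = φ) :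
    ∃ ψ' : G → A, dOne A ψ' = φ ∧ (∀ g, ∀ s ∈ S, ψ' (g * s) = ψ' g) ∧
      (∀ g, ∀ s ∈ S, A.ρ s (ψ' g) = ψ' g) := by
  set c : A := φ (1, 1) with hc
  -- values of `φ` on `G × S` and `S × G`
  have hφr : ∀ g, ∀ s ∈ S, φ (g, s) = A.ρ g c := by
    intro g s hs
    have e1 : φ (g, s) = φ (g, 1) := by simpa using hr g 1 s hs
    have e2 := hφ g 1 1
    simp only [mul_one] at e2
    rw [e1]
    exact add_right_cancel e2
  have hφl : ∀ s ∈ S, ∀ g, φ (s, g) = c := by
    intro s hs g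
    have e1 : φ (s, g) = φ (1, g) := by simpa using hl 1 g s hs
    have e2 := hφ 1 1 g
    simp only [one_mul, map_one, Module.End.one_apply] at e2
    rw [e1]
    exact (add_left_cancel e2).symm
  -- `ψ - c` restricted to `S` is a 1-cocycle
  have hψ' : ∀ g h, A.ρ g (ψ h) - ψ (g * h) + ψ g = φ (g, h) := fun g h => by
    rw [← hψ, dOne_apply]
  obtain ⟨y, hy⟩ := hH1 (fun g => ψ g - c) (fun s hs s' hs' => by
    have e := hψ' s s'
    rw [hφl s hs s'] at e
    have e3 := hinv s hs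
    simp only [map_sub, e3]
    rw [← e]
    abel)
  -- the corrected primitive
  set ψ₂ : G → A := fun g => ψ g - c - (A.ρ g y - y) with hψ₂
  have h0 : ∀ s ∈ S, ψ₂ s = 0 := fun s hs => by
    simp only [hψ₂]
    rw [hy s hs, sub_self]
  have hd : ∀ g h, A.ρ g (ψ₂ h) - ψ₂ (g * h) + ψ₂ g = φ (g, h) - A.ρ g c := by
    intro g h
    simp only [hψ₂, map_sub, map_mul, Module.End.mul_apply]
    rw [← hψ' g h]
    abel
  have hmul : ∀ g, ∀ s ∈ S, ψ₂ (g * s) = ψ₂ g := by
    intro g s hs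
    have e := hd g s
    rw [h0 s hs, hφr g s hs, map_zero, sub_self, zero_sub, neg_add_eq_zero] at e
    exact e
  have hfix : ∀ g, ∀ s ∈ S, A.ρ s (ψ₂ g) = ψ₂ g := by
    intro g s hs
    have e := hd s g
    have e3 := hinv s hs
    rw [h0 s hs, hφl s hs g, e3, sub_self, add_zero, sub_eq_zero] at e
    rw [e]
    have e4 : s * g = g * (g⁻¹ * s * g) := by group
    rw [e4]
    exact hmul g _ (Subgroup.Normal.conj_mem' ‹_› s hs g)
  refine ⟨fun g => ψ₂ g + c, ?_, fun g s hs => ?_, fun g s hs => ?_⟩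
  · funext ⟨g, h⟩
    rw [dOne_apply]
    simp only [map_add]
    have e := hd g h
    rw [← sub_eq_zero] at e ⊢
    rw [← e]
    abel
  · simp only [hmul g s hs]
  · simp only [map_add, hfix g s hs, hinv s hs]

end Primitive

section Descend

variable (S : Subgroup G) [S.Normal]

/-- Descent of a right-`S`-invariant 1-cochain with `S`-invariant values to `G ⧸ S`. -/
noncomputable def desc₁ (u : G → A) (h1 : ∀ g, ∀ s ∈ S, u (g * s) = u g)
    (h2 : ∀ g, ∀ s ∈ S, A.ρ s (u g) = u g) : G ⧸ S → A.quotientToInvariants S :=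
  fun q => Quotient.liftOn' q (fun g => ⟨u g, fun s => h2 g s.1 s.2⟩) (fun g h hgh =>
    Subtype.ext (by
      have := h1 g (g⁻¹ * h) (QuotientGroup.leftRel_apply.1 hgh)
      simpa using this.symm))

theorem desc₁_mk (u : G → A) (h1 : ∀ g, ∀ s ∈ S, u (g * s) = u g)
    (h2 : ∀ g, ∀ s ∈ S, A.ρ s (u g) = u g) (g : G) :
    ((desc₁ S u h1 h2 (g : G ⧸ S)) : A) = u g := rfl

/-- Descent of a bi-`S`-invariant 2-cochain with `S`-invariant values to `G ⧸ S`. -/
noncomputable def desc₂ (f : G × G → A) (hl : ∀ g h, ∀ s ∈ S, f (g * s, h) = f (g, h))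
    (hr : ∀ g h, ∀ s ∈ S, f (g, h * s) = f (g, h))
    (h2 : ∀ g h, ∀ s ∈ S, A.ρ s (f (g, h)) = f (g, h)) :
    (G ⧸ S) × (G ⧸ S) → A.quotientToInvariants S :=
  fun p => Quotient.liftOn₂' p.1 p.2 (fun g h => ⟨f (g, h), fun s => h2 g h s.1 s.2⟩)
    (fun g h g' h' hg hh => Subtype.ext (by
      have e1 := hl g h (g⁻¹ * g') (QuotientGroup.leftRel_apply.1 hg)
      have e2 := hr g' h (h⁻¹ * h') (QuotientGroup.leftRel_apply.1 hh)
      simp only [mul_inv_cancel_left] at e1 e2
      show f (g, h) = f (g', h')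
      rw [← e1, ← e2]))

theorem desc₂_mk (f : G × G → A) (hl : ∀ g h, ∀ s ∈ S, f (g * s, h) = f (g, h))
    (hr : ∀ g h, ∀ s ∈ S, f (g, h * s) = f (g, h))
    (h2 : ∀ g h, ∀ s ∈ S, A.ρ s (f (g, h)) = f (g, h)) (g h : G) :
    ((desc₂ S f hl hr h2 ((g : G ⧸ S), (h : G ⧸ S))) : A) = f (g, h) := rfl

end Descend

end Cochain

section MapOne

variable {k G H : Type u} [CommRing k] [Group G] [Group H] {A : Rep k H} {B : Rep k G}

theorem map₂_one (φ : res (1 : G →* H) A ⟶ B) : map 1 φ 2 = 0 := by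
  rw [← cancel_epi (H2π _), H2π_comp_map, Limits.comp_zero]
  ext x
  simp only [ModuleCat.hom_comp, LinearMap.coe_comp, Function.comp_apply, ModuleCat.hom_zero,
    LinearMap.zero_apply]
  refine (H2π_eq_zero_iff _).2 ⟨fun _ => φ.hom (x (1, 1)), ?_⟩
  funext ⟨g, h⟩
  have := hom_comm_apply φ g (x (1, 1))
  have h1 : (res (1 : G →* H) A).ρ g (x (1, 1)) = x (1, 1) := by
    show A.ρ ((1 : G →* H) g) (x (1, 1)) = x (1, 1)
    simp
  rw [h1] at this
  rw [d₁₂_hom_apply]
  show B.ρ g (φ.hom (x (1, 1))) - φ.hom (x (1, 1)) + φ.hom (x (1, 1)) = φ.hom (x (1, 1))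
  rw [← this]
  abel

end MapOne

section InfRes

variable {k G : Type u} [CommRing k] [Group G]

/-- The short complex `H²(G ⧸ S, A^S) ⟶ H²(G, A) ⟶ H²(S, A)` (inflation, restriction); the exact
analogue of Mathlib's `groupCohomology.H1InfRes`. -/
@[simps X₁ X₂ X₃ f g]
noncomputable def H2InfRes (A : Rep k G) (S : Subgroup G) [S.Normal] :
    ShortComplex (ModuleCat k) where
  X₁ := groupCohomology (A.quotientToInvariants S) 2
  X₂ := groupCohomology A 2
  X₃ := groupCohomology (res S.subtype A) 2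
  f := map (QuotientGroup.mk' S) (ofHom <| A.ρ.quotientToInvariants_lift S) 2
  g := map S.subtype (𝟙 _) 2
  zero := by rw [← map_comp, Category.comp_id, groupCohomology.congr (QuotientGroup.mk'_comp_subtype S)
    (fun f φ => map f φ 2), map₂_one]

theorem explicit_H1_of_isZero (A : Rep k G) (S : Subgroup G)
    (h1 : Limits.IsZero (groupCohomology (res S.subtype A) 1)) :
    ∀ c : G → A, (∀ s ∈ S, ∀ s' ∈ S, c (s * s') = A.ρ s (c s') + c s) →
      ∃ y : A, ∀ s ∈ S, c s = A.ρ s y - y := by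
  intro c hc
  have hmem : (fun s : S => c s.1) ∈ cocycles₁ (res S.subtype A) :=
    (mem_cocycles₁_iff (A := res S.subtype A) _).2 fun s s' => hc s.1 s.2 s'.1 s'.2
  have := ModuleCat.subsingleton_of_isZero h1
  have hx : H1π (res S.subtype A) ⟨_, hmem⟩ = 0 := Subsingleton.elim _ _
  obtain ⟨y, hy⟩ := (H1π_eq_zero_iff _).1 hx
  refine ⟨y, fun s hs => ?_⟩
  have := congr_fun hy ⟨s, hs⟩
  rw [d₀₁_hom_apply] at this
  exact this.symm

/-- The inflation of a 2-cocycle of `G ⧸ S` with values in `A^S`, as a plain function. -/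
theorem isCoc2_inflate (A : Rep k G) (S : Subgroup G) [S.Normal]
    (x : cocycles₂ (A.quotientToInvariants S)) :
    IsCoc2 A (fun p : G × G => ((x ((p.1 : G ⧸ S), (p.2 : G ⧸ S))) : A)) := by
  intro g h j
  have := congrArg Subtype.val ((mem_cocycles₂_iff x).1 x.2 (g : G ⧸ S) (h : G ⧸ S) (j : G ⧸ S))
  exact this

set_option backward.defeqAttrib.useBackward true in
set_option backward.isDefEq.respectTransparency false in
/-- **C1-c.**  If `H¹(S, A) = 0` the inflation `H²(G ⧸ S, A^S) ⟶ H²(G, A)` is injective. -/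
theorem H2InfRes_mono (A : Rep k G) (S : Subgroup G) [S.Normal]
    (h1 : Limits.IsZero (groupCohomology (res S.subtype A) 1)) : Mono (H2InfRes A S).f := by
  rw [ModuleCat.mono_iff_injective, injective_iff_map_eq_zero]
  intro x hx
  induction x using H2_induction_on with | @h x =>
  simp_all only [H2InfRes_X₂, H2InfRes_X₁, H2InfRes_f, H2π_comp_map_apply (QuotientGroup.mk' S)]
  rcases (H2π_eq_zero_iff _).1 hx with ⟨ψ, hψ⟩
  have hψ' : dOne A ψ = fun p : G × G => ((x ((p.1 : G ⧸ S), (p.2 : G ⧸ S))) : A) := by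
    funext p
    have := congr_fun hψ p
    rw [d₁₂_hom_apply] at this
    exact this
  obtain ⟨ψ', hd, hmul, hfix⟩ := exists_descended_primitive (explicit_H1_of_isZero A S h1)
    (isCoc2_inflate A S x)
    (fun g h s hs => by
      have e : ((g * s : G) : G ⧸ S) = (g : G ⧸ S) := by
        rw [QuotientGroup.mk_mul, (QuotientGroup.eq_one_iff s).2 hs, mul_one]
      simp only [e])
    (fun g h s hs => by
      have e : ((h * s : G) : G ⧸ S) = (h : G ⧸ S) := by
        rw [QuotientGroup.mk_mul, (QuotientGroup.eq_one_iff s).2 hs, mul_one]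
      simp only [e])
    (fun s hs => (x (((1 : G) : G ⧸ S), ((1 : G) : G ⧸ S))).2 ⟨s, hs⟩) ψ hψ'
  refine (H2π_eq_zero_iff _).2 ⟨desc₁ S ψ' hmul hfix, ?_⟩
  funext ⟨q₁, q₂⟩
  induction q₁ using QuotientGroup.induction_on with | @H g =>
  induction q₂ using QuotientGroup.induction_on with | @H h =>
  apply Subtype.ext
  rw [d₁₂_hom_apply]
  exact congr_fun hd (g, h)

set_option backward.defeqAttrib.useBackward true in
set_option backward.isDefEq.respectTransparency false in
/-- **C1-c.**  If `H¹(S, A) = 0` then `H²(G ⧸ S, A^S) ⟶ H²(G, A) ⟶ H²(S, A)` is exact. -/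
theorem H2InfRes_exact (A : Rep k G) (S : Subgroup G) [S.Normal]
    (h1 : Limits.IsZero (groupCohomology (res S.subtype A) 1)) : (H2InfRes A S).Exact := by
  rw [ShortComplex.moduleCat_exact_iff_ker_sub_range]
  intro x hx
  induction x using H2_induction_on with | @h x =>
  simp_all only [H2InfRes_X₂, H2InfRes_X₃, H2InfRes_g, H2InfRes_X₁, LinearMap.mem_ker,
    H2π_comp_map_apply S.subtype, H2InfRes_f]
  rcases (H2π_eq_zero_iff _).1 hx with ⟨(b : S → A), hb⟩
  classical
  set b' : G → A := fun g => if h : g ∈ S then b ⟨g, h⟩ else 0 with hb'_def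
  have hxc : IsCoc2 A x := (mem_cocycles₂_iff x).1 x.2
  have hb' : ∀ s ∈ S, ∀ s' ∈ S, x (s, s') = dOne A b' (s, s') := by
    intro s hs s' hs'
    have := congr_fun hb (⟨s, hs⟩, ⟨s', hs'⟩)
    rw [d₁₂_hom_apply] at this
    simp only [dOne_apply, hb'_def, hs, hs', S.mul_mem hs hs', dif_pos]
    exact this.symm
  obtain ⟨u, hr, hl⟩ := exists_normalised (explicit_H1_of_isZero A S h1) hxc b' hb'
  set f₂ : G × G → A := x - dOne A u with hf₂
  have hc₂ : IsCoc2 A f₂ := hxc.sub (isCoc2_dOne u)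
  have hl' : ∀ g h, ∀ s ∈ S, f₂ (g * s, h) = f₂ (g, h) :=
    fun g h s hs => hc₂.mul_left_of_vanish hr hl g h hs
  have hr' : ∀ g h, ∀ s ∈ S, f₂ (g, h * s) = f₂ (g, h) :=
    fun g h s hs => hc₂.mul_right_of_vanish hr g h hs
  have hfix : ∀ g h, ∀ s ∈ S, A.ρ s (f₂ (g, h)) = f₂ (g, h) :=
    fun g h s hs => hc₂.smul_of_vanish hr hl g h hs
  refine ⟨H2π _ ⟨desc₂ S f₂ hl' hr' hfix, ?_⟩, ?_⟩
  · rw [mem_cocycles₂_iff]
    intro q₁ q₂ q₃
    induction q₁ using QuotientGroup.induction_on with | @H g =>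
    induction q₂ using QuotientGroup.induction_on with | @H h =>
    induction q₃ using QuotientGroup.induction_on with | @H j =>
    apply Subtype.ext
    exact hc₂ g h j
  · symm
    simp only [H2π_comp_map_apply, H2π_eq_iff (A := A)]
    refine ⟨u, ?_⟩
    funext ⟨g, h⟩
    rw [d₁₂_hom_apply]
    show A.ρ g (u h) - u (g * h) + u g = x (g, h) - f₂ (g, h)
    rw [hf₂]
    simp only [Pi.sub_apply, dOne_apply]
    abel

/-! ### Consumer forms -/

/-- Elementwise injectivity of inflation in degree 2. -/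
theorem H2InfRes_f_injective (A : Rep k G) (S : Subgroup G) [S.Normal]
    (h1 : Limits.IsZero (groupCohomology (res S.subtype A) 1)) :
    Function.Injective (H2InfRes A S).f.hom := by
  have := H2InfRes_mono A S h1
  exact (ModuleCat.mono_iff_injective _).1 this

/-- Elementwise exactness of inflation–restriction in degree 2. -/
theorem H2InfRes_exact_apply (A : Rep k G) (S : Subgroup G) [S.Normal]
    (h1 : Limits.IsZero (groupCohomology (res S.subtype A) 1)) (x : groupCohomology A 2)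
    (hx : (H2InfRes A S).g.hom x = 0) : ∃ y, (H2InfRes A S).f.hom y = x :=
  (ShortComplex.moduleCat_exact_iff_ker_sub_range _).1 (H2InfRes_exact A S h1)
    (LinearMap.mem_ker.2 hx)

/-- A counting lemma for a left exact sequence `0 ⟶ X₁ ⟶ X₂ ⟶ X₃` of additive groups
(`Nat.card`, so `0` means infinite). -/
theorem natCard_dvd_mul_of_exact {X₁ X₂ X₃ : Type*} [AddCommGroup X₁] [AddCommGroup X₂]
    [AddCommGroup X₃] (f : X₁ →+ X₂) (g : X₂ →+ X₃) (hf : Function.Injective f)
    (hfg : ∀ x, g x = 0 → ∃ y, f y = x) (hgf : ∀ y, g (f y) = 0) :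
    Nat.card X₂ ∣ Nat.card X₁ * Nat.card X₃ := by
  have hker : g.ker = f.range := by
    ext x
    constructor
    · intro hx
      obtain ⟨y, rfl⟩ := hfg x hx
      exact ⟨y, rfl⟩
    · rintro ⟨y, rfl⟩
      exact hgf y
  have h1 : Nat.card g.ker = Nat.card X₁ := by
    rw [hker]
    exact (Nat.card_congr (Equiv.ofInjective f hf)).symm
  have h2 := g.ker.card_mul_index
  rw [AddSubgroup.index_ker, h1] at h2
  rw [← h2]
  exact Nat.mul_dvd_mul_left _ (AddSubgroup.card_addSubgroup_dvd_card _)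

/-- **C1-c, counting form.**  If `H¹(S, A) = 0` then
`#H²(G, A) ∣ #H²(G ⧸ S, A^S) * #H²(S, A)` (`Nat.card`). -/
theorem natCard_H2_dvd_mul (A : Rep k G) (S : Subgroup G) [S.Normal]
    (h1 : Limits.IsZero (groupCohomology (res S.subtype A) 1)) :
    Nat.card (groupCohomology A 2) ∣ Nat.card (groupCohomology (A.quotientToInvariants S) 2) *
      Nat.card (groupCohomology (res S.subtype A) 2) :=
  natCard_dvd_mul_of_exact (H2InfRes A S).f.hom.toAddMonoidHom (H2InfRes A S).g.hom.toAddMonoidHom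
    (H2InfRes_f_injective A S h1) (H2InfRes_exact_apply A S h1)
    (fun y => (H2InfRes A S).moduleCat_zero_apply y)

/-- **C1-c, vanishing form.**  If `H¹(S, A) = 0`, `H²(G ⧸ S, A^S) = 0` and `H²(S, A) = 0` then
`H²(G, A) = 0`. -/
theorem isZero_H2_of_isZero (A : Rep k G) (S : Subgroup G) [S.Normal]
    (h1 : Limits.IsZero (groupCohomology (res S.subtype A) 1))
    (hq : Limits.IsZero (groupCohomology (A.quotientToInvariants S) 2))
    (hs : Limits.IsZero (groupCohomology (res S.subtype A) 2)) :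
    Limits.IsZero (groupCohomology A 2) :=
  (H2InfRes_exact A S h1).isZero_of_both_zeros (hq.eq_of_src _ _) (hs.eq_of_tgt _ _)

/-- Vanishing form of Mathlib's inflation–restriction in degree 1: if `H¹(G ⧸ S, A^S) = 0` and
`H¹(S, A) = 0` then `H¹(G, A) = 0`. -/
theorem isZero_H1_of_isZero (A : Rep k G) (S : Subgroup G) [S.Normal]
    (hq : Limits.IsZero (groupCohomology (A.quotientToInvariants S) 1))
    (hs : Limits.IsZero (groupCohomology (res S.subtype A) 1)) :
    Limits.IsZero (groupCohomology A 1) :=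
  (H1InfRes_exact A S).isZero_of_both_zeros (hq.eq_of_src _ _) (hs.eq_of_tgt _ _)

end InfRes

end Fermat.Agent.S55.H84
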