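/-
S55 (Poitou–Tate), package C1 (helper84): the shared definition for Tate's theorem in degree 3
(request TATE-3 of C8): `NormSurj B H` = "`Ĥ⁰(H, B) = 0`", i.e. every `H`-invariant element of `B`
is an `H`-norm.  Definitions and trivial reformulations only.
-/
import Mathlib

set_option autoImplicit false

universe u

namespace Fermat.Agent.S55.H84

variable {k G : Type u} [CommRing k] [Group G]

/-- `Ĥ⁰(H, B) = 0`: every element of `B` fixed by the subgroup `H` is the `H`-norm `∑_{h ∈ H} h • c`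
of some `c`.  (The sum is a `finsum` over the subtype `↥H`; see `normSurj_iff_of_fintype`.) -/
def NormSurj (B : Rep k G) (H : Subgroup G) : Prop :=
  ∀ b : B, (∀ h ∈ H, B.ρ h b = b) → ∃ c : B, b = ∑ᶠ h : H, B.ρ (h : G) c

theorem normSurj_iff_of_fintype (B : Rep k G) (H : Subgroup G) [Fintype H] :
    NormSurj B H ↔ ∀ b : B, (∀ h ∈ H, B.ρ h b = b) → ∃ c : B, b = ∑ h : H, B.ρ (h : G) c := by
  unfold NormSurj
  simp only [finsum_eq_sum_of_fintype]

/-- An `H`-norm is `H`-invariant. -/
theorem map_finsum_subgroup_eq (B : Rep k G) (H : Subgroup G) [Finite H] (c : B) {g : G}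
    (hg : g ∈ H) : B.ρ g (∑ᶠ h : H, B.ρ (h : G) c) = ∑ᶠ h : H, B.ρ (h : G) c := by
  classical
  have := Fintype.ofFinite H
  rw [finsum_eq_sum_of_fintype, map_sum]
  refine Fintype.sum_equiv (Equiv.mulLeft (⟨g, hg⟩ : H)) _ _ fun h => ?_
  simp [map_mul]

end Fermat.Agent.S55.H84
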