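/-
S55 (Poitou–Tate), package C1 (helper84): TATE'S THEOREM IN DEGREE 3, the core (leaf T-f of
`TateSpec`) and the top (T-g), conditional on the leaves that other seats are proving:

* `extModule B q hq` : for a 1-cocycle `q : G → B` the extension `0 ⟶ B ⟶ E_q ⟶ ℤ ⟶ 0`
  (`E_q = B × ℤ`, `g (x, n) = (g x + n • q g, n)`) as a representation;
* `ext_H1_vanish`, `ext_normSurj`, `ext_H2_inj` : the three elementary facts about `E_q`;
* `isZero_H2_of_generator_of_twin` : TATE-core — if `Ĥ⁰(H, B) = 0`, `#H¹(H, B) = #H` and `H¹(H, B)`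
  is generated by `res q` for every subgroup `H`, then `H²(G, B) = 0`; conditional on TWIN-2;
* `isZero_H3_of_fundamental_class_of` : TATE-3 — `H¹(H, A) = 0`, `#H²(H, A) = #H`, `H²(H, A)`
  generated by `res u` for all `H ≤ G` ⟹ `H³(G, A) = 0`; conditional on TWIN-2, on
  `NormSurj (dimShift A) H` and on the compatibility of the dimension shift with restriction.
-/
import Mathlib
import Fermat.Agent.S55.H73.DimShift
import Fermat.Agent.S55.H84.TateDefs

set_option autoImplicit false

open CategoryTheory groupCohomology Rep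

namespace Fermat.Agent.S55.H84

section ExtModule

variable {G : Type} [Group G] (B : Rep ℤ G) (q : G → B)

/-- The twisted action of `g` on `B × ℤ`: `(x, n) ↦ (g x + n • q g, n)`, as an additive map. -/
noncomputable def extAdd (g : G) : (B × ℤ) →+ (B × ℤ) :=
  AddMonoidHom.mk' (fun p => (B.ρ g p.1 + p.2 • q g, p.2)) (fun p p' => by
    ext
    · simp only [Prod.fst_add, Prod.snd_add, map_add, add_smul]
      abel
    · rfl)

theorem extAdd_apply (g : G) (p : B × ℤ) : extAdd B q g p = (B.ρ g p.1 + p.2 • q g, p.2) := rfl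

variable (hq : ∀ g h, q (g * h) = B.ρ g (q h) + q g)

/-- The extension `0 ⟶ B ⟶ E_q ⟶ ℤ ⟶ 0` defined by a 1-cocycle `q`, as a representation. -/
noncomputable def extRep : Representation ℤ G (B × ℤ) where
  toFun g := (extAdd B q g).toIntLinearMap
  map_one' := by
    have h1 : q 1 = 0 := by
      have := hq 1 1
      simp only [mul_one, map_one, Module.End.one_apply] at this
      simpa using this
    refine LinearMap.ext fun p => ?_
    simp [extAdd_apply, h1]
  map_mul' g h := by
    refine LinearMap.ext fun p => ?_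
    simp only [AddMonoidHom.coe_toIntLinearMap, extAdd_apply, Module.End.mul_apply, hq g h, map_mul, map_add,
      map_zsmul, smul_add]
    ext
    · simp only [add_assoc]
    · rfl

/-- The extension `E_q` as an object of `Rep ℤ G`. -/
noncomputable def extModule : Rep ℤ G := Rep.of (extRep B q hq)

theorem extModule_ρ_apply (g : G) (p : B × ℤ) :
    (extModule B q hq).ρ g p = (B.ρ g p.1 + p.2 • q g, p.2) := rfl

theorem eq_zero_of_map_mul {H : Type*} [Group H] [Finite H] (n : H → ℤ)
    (hn : ∀ s s', n (s * s') = n s + n s') (s : H) : n s = 0 := by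
  have h1 : n 1 = 0 := by
    have := hn 1 1
    simp only [mul_one] at this
    omega
  have hpow : ∀ k : ℕ, n (s ^ k) = k * n s := by
    intro k
    induction k with
    | zero => simp [h1]
    | succ k ih =>
      rw [pow_succ, hn, ih]
      push_cast
      ring
  have h2 := hpow (orderOf s)
  rw [pow_orderOf_eq_one, h1] at h2
  have hpos : 0 < orderOf s := orderOf_pos s
  have h3 : (orderOf s : ℤ) ≠ 0 := by exact_mod_cast hpos.ne'
  rcases mul_eq_zero.1 h2.symm with h | h
  · exact absurd h h3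
  · exact h

/-- **(E3)**, function level: a primitive in `E_q` of a `B`-valued 2-cocycle has `ℤ`-component `0`,
hence is a primitive in `B`. -/
theorem ext_H2_inj [Finite G] (f : G × G → B) (c : G → extModule B q hq)
    (hc : ∀ g h, (extModule B q hq).ρ g (c h) - c (g * h) + c g =
      ((f (g, h), (0 : ℤ)) : extModule B q hq)) :
    ∃ x : G → B, ∀ g h, B.ρ g (x h) - x (g * h) + x g = f (g, h) := by
  have h2 : ∀ g h, (c h).2 - (c (g * h)).2 + (c g).2 = 0 := fun g h =>
    congrArg Prod.snd (hc g h)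
  have hn : ∀ g, (c g).2 = 0 :=
    eq_zero_of_map_mul (fun g => (c g).2) (fun g h => by have := h2 g h; omega)
  refine ⟨fun g => (c g).1, fun g h => ?_⟩
  have h1 : B.ρ g (c h).1 + (c h).2 • q g - (c (g * h)).1 + (c g).1 = f (g, h) :=
    congrArg Prod.fst (hc g h)
  rw [hn h, zero_smul, add_zero] at h1
  exact h1

/-- **(E1)**, function level: if every 1-cocycle of `H` in `B` is `m • q + coboundary`, then every
1-cocycle of `H` in `E_q` is a coboundary. -/
theorem ext_H1_vanish (H : Subgroup G) [Finite H]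
    (hgen : ∀ x : H → B, (∀ s s' : H, x (s * s') = B.ρ (s : G) (x s') + x s) →
      ∃ (m : ℤ) (y : B), ∀ s : H, x s = m • q (s : G) + (B.ρ (s : G) y - y))
    (c : H → extModule B q hq)
    (hc : ∀ s s' : H, c (s * s') = (extModule B q hq).ρ (s : G) (c s') + c s) :
    ∃ e : extModule B q hq, ∀ s : H, c s = (extModule B q hq).ρ (s : G) e - e := by
  have h2 : ∀ s s' : H, (c (s * s')).2 = (c s').2 + (c s).2 := fun s s' =>
    congrArg Prod.snd (hc s s')
  have hn : ∀ s, (c s).2 = 0 :=
    eq_zero_of_map_mul (fun s => (c s).2) (fun s s' => by have := h2 s s'; omega)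
  have h1 : ∀ s s' : H, (c (s * s')).1 = B.ρ (s : G) (c s').1 + (c s).1 := by
    intro s s'
    have h : (c (s * s')).1 = B.ρ (s : G) (c s').1 + (c s').2 • q (s : G) + (c s).1 :=
      congrArg Prod.fst (hc s s')
    rw [hn s', zero_smul, add_zero] at h
    exact h
  obtain ⟨m, y, hy⟩ := hgen (fun s => (c s).1) h1
  refine ⟨(y, m), fun s => ?_⟩
  refine Prod.ext ?_ ?_
  · show (c s).1 = B.ρ (s : G) y + m • q (s : G) - y
    rw [hy s]
    abel
  · show (c s).2 = m - m
    rw [hn s, sub_self]

/-- **(E2)**, function level: `Ĥ⁰(H, E_q) = 0` if `Ĥ⁰(H, B) = 0` and the class of `q` restricted to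
`H` has order (a multiple of) `#H`. -/
theorem ext_normSurj (H : Subgroup G) [Finite H]
    (hord : ∀ (n : ℤ) (x : B), (∀ s ∈ H, n • q s = B.ρ s x - x) → (Nat.card H : ℤ) ∣ n)
    (h0 : NormSurj B H) : NormSurj (extModule B q hq) H := by
  classical
  have := Fintype.ofFinite H
  rw [normSurj_iff_of_fintype] at h0 ⊢
  intro b hb
  have hb1 : ∀ s ∈ H, B.ρ s b.1 + b.2 • q s = b.1 := fun s hs => congrArg Prod.fst (hb s hs)
  obtain ⟨m, hm⟩ := hord b.2 (-b.1) (fun s hs => by
    have h := hb1 s hs
    rw [map_neg]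
    rw [← sub_eq_zero] at h ⊢
    rw [← h]
    abel)
  set z : B := ∑ h : H, m • q (h : G) with hz
  have hcardm : (Fintype.card H : ℤ) * m = b.2 := by
    rw [hm, Nat.card_eq_fintype_card]
  have hρz : ∀ s ∈ H, B.ρ s z = z - b.2 • q s := by
    intro s hs
    have e1 : ∀ h : H, B.ρ s (m • q (h : G)) = m • q (((⟨s, hs⟩ : H) * h : H) : G) - m • q s := by
      intro h
      rw [map_zsmul, Subgroup.coe_mul, hq s (h : G), smul_add, add_sub_cancel_right]
    rw [hz, map_sum, Finset.sum_congr rfl (fun h _ => e1 h), Finset.sum_sub_distrib,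
      Finset.sum_const, Finset.card_univ, ← hcardm, mul_smul, natCast_zsmul]
    congr 1
    exact Fintype.sum_equiv (Equiv.mulLeft (⟨s, hs⟩ : H)) _ _ fun h => rfl
  have hinv : ∀ s ∈ H, B.ρ s (b.1 - z) = b.1 - z := by
    intro s hs
    have h := hb1 s hs
    rw [map_sub, hρz s hs]
    rw [← sub_eq_zero] at h ⊢
    rw [← h]
    abel
  obtain ⟨y, hy⟩ := h0 (b.1 - z) hinv
  refine ⟨(y, m), ?_⟩
  have key : (b : B × ℤ) = ∑ h : H, ((B.ρ (h : G) y + m • q (h : G), m) : B × ℤ) := by
    refine Prod.ext ?_ ?_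
    · rw [Prod.fst_sum, Finset.sum_add_distrib, ← hy, ← hz]
      abel
    · rw [Prod.snd_sum]
      simp only [Finset.sum_const, Finset.card_univ]
      rw [← hcardm]
      simp
  exact key

end ExtModule

section Core

variable {G : Type} [Group G] [Finite G]

theorem isZero_of_forall_eq_zero (M : ModuleCat ℤ) (h : ∀ x : M, x = 0) : Limits.IsZero M := by
  have : Subsingleton M := ⟨fun a b => by rw [h a, h b]⟩
  exact ModuleCat.isZero_of_subsingleton M

/-- **(T-f) TATE-core**, conditional on TWIN-2 (`hTwin`). -/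
theorem isZero_H2_of_generator_of_twin (B : Rep ℤ G) (q : groupCohomology B 1)
    (hTwin : ∀ E : Rep ℤ G, (∀ H : Subgroup G, NormSurj E H) →
      (∀ H : Subgroup G, Limits.IsZero (groupCohomology (res H.subtype E) 1)) →
      Limits.IsZero (groupCohomology E 2))
    (h0 : ∀ H : Subgroup G, NormSurj B H)
    (hcard : ∀ H : Subgroup G, Nat.card (groupCohomology (res H.subtype B) 1) = Nat.card H)
    (hgen : ∀ (H : Subgroup G) (y : groupCohomology (res H.subtype B) 1),
      ∃ m : ℤ, y = m • (map H.subtype (𝟙 (res H.subtype B)) 1).hom q) :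
    Limits.IsZero (groupCohomology B 2) := by
  induction q using H1_induction_on with | @h q₀ =>
  have hq := (mem_cocycles₁_iff q₀).1 q₀.2
  have hGEN : ∀ (H : Subgroup G) (x : H → B),
      (∀ s s' : H, x (s * s') = B.ρ (s : G) (x s') + x s) →
      ∃ (m : ℤ) (y : B), ∀ s : H, x s = m • q₀ (s : G) + (B.ρ (s : G) y - y) := by
    intro H x hx
    have hmem : x ∈ cocycles₁ (res H.subtype B) :=
      (mem_cocycles₁_iff (A := res H.subtype B) x).2 hx
    obtain ⟨m, hm⟩ := hgen H (H1π _ ⟨x, hmem⟩)
    rw [H1π_comp_map_apply, ← map_zsmul, H1π_eq_iff] at hm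
    obtain ⟨y, hy⟩ := hm
    refine ⟨m, y, fun s => ?_⟩
    have := congr_fun hy s
    rw [d₀₁_hom_apply] at this
    have e : x s - m • q₀ (s : G) = B.ρ (s : G) y - y := this.symm
    rw [← e]
    abel
  have hORD : ∀ (H : Subgroup G) (n : ℤ) (x : B),
      (∀ s ∈ H, n • q₀ s = B.ρ s x - x) → (Nat.card H : ℤ) ∣ n := by
    intro H n x hx
    set r := (map H.subtype (𝟙 (res H.subtype B)) 1).hom (H1π B q₀) with hr
    have hord : addOrderOf r = Nat.card H := by
      rw [← hcard H]
      exact addOrderOf_eq_card_of_forall_mem_zmultiples (fun y => by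
        obtain ⟨m, hm⟩ := hgen H y
        exact ⟨m, hm.symm⟩)
    rw [← hord, addOrderOf_dvd_iff_zsmul_eq_zero]
    rw [hr, H1π_comp_map_apply, ← map_zsmul, H1π_eq_zero_iff]
    refine ⟨x, ?_⟩
    funext s
    rw [d₀₁_hom_apply]
    exact (hx s s.2).symm
  have hE : Limits.IsZero (groupCohomology (extModule B q₀ hq) 2) := by
    refine hTwin _ (fun H => ext_normSurj B q₀ hq H (hORD H) (h0 H)) (fun H => ?_)
    refine isZero_of_forall_eq_zero _ (fun a => ?_)
    induction a using H1_induction_on with | @h c =>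
    obtain ⟨e, he⟩ := ext_H1_vanish B q₀ hq H (hGEN H) c
      ((mem_cocycles₁_iff (A := res H.subtype (extModule B q₀ hq)) c).1 c.2)
    refine (H1π_eq_zero_iff _).2 ⟨e, funext fun s => ?_⟩
    rw [d₀₁_hom_apply]
    exact (he s).symm
  refine isZero_of_forall_eq_zero _ (fun a => ?_)
  induction a using H2_induction_on with | @h f =>
  have hf := (mem_cocycles₂_iff f).1 f.2
  set f' : G × G → extModule B q₀ hq := fun p => (f p, (0 : ℤ)) with hf'
  have hmem : f' ∈ cocycles₂ (extModule B q₀ hq) := by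
    refine (mem_cocycles₂_iff f').2 fun g h j => ?_
    refine Prod.ext ?_ ?_
    · show f (g * h, j) + f (g, h) = B.ρ g (f (h, j)) + (0 : ℤ) • q₀ g + f (g, h * j)
      rw [zero_smul, add_zero]
      exact hf g h j
    · rfl
  have hsub := ModuleCat.subsingleton_of_isZero hE
  have hzero : H2π (extModule B q₀ hq) ⟨f', hmem⟩ = 0 := Subsingleton.elim _ _
  obtain ⟨c, hc⟩ := (H2π_eq_zero_iff _).1 hzero
  obtain ⟨x, hx⟩ := ext_H2_inj B q₀ hq f c (fun g h => by
    have := congr_fun hc (g, h)
    rw [d₁₂_hom_apply] at this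
    exact this)
  refine (H2π_eq_zero_iff _).2 ⟨x, funext fun ⟨g, h⟩ => ?_⟩
  rw [d₁₂_hom_apply]
  exact hx g h

end Core

section Top

open Fermat.Agent.S55.H73

variable {G : Type} [Group G] [Finite G]

/-- **(T-g) TATE-3**, conditional on TWIN-2 (`hTwin`), on `Ĥ⁰(H, dimShift A) = 0` (`hNS`) and on the
compatibility of the dimension shift with restriction (`hRes`). -/
theorem isZero_H3_of_fundamental_class_of (A : Rep ℤ G) (u : groupCohomology A 2)
    (hTwin : ∀ E : Rep ℤ G, (∀ H : Subgroup G, NormSurj E H) →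
      (∀ H : Subgroup G, Limits.IsZero (groupCohomology (res H.subtype E) 1)) →
      Limits.IsZero (groupCohomology E 2))
    (hNS : ∀ H : Subgroup G, Limits.IsZero (groupCohomology (res H.subtype A) 1) →
      NormSurj (dimShift A) H)
    (hRes : ∀ (S : Subgroup G) (c : groupCohomology (dimShift A) 1),
      (shiftIso A S 0).hom.hom ((map S.subtype (𝟙 (res S.subtype (dimShift A))) 1).hom c) =
        (map S.subtype (𝟙 (res S.subtype A)) 2).hom ((shiftIsoTop A 0).hom.hom c))
    (h1 : ∀ H : Subgroup G, Limits.IsZero (groupCohomology (res H.subtype A) 1))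
    (h2 : ∀ H : Subgroup G, Nat.card (groupCohomology (res H.subtype A) 2) = Nat.card H)
    (hgen : ∀ (H : Subgroup G) (y : groupCohomology (res H.subtype A) 2),
      ∃ m : ℤ, y = m • (map H.subtype (𝟙 (res H.subtype A)) 2).hom u) :
    Limits.IsZero (groupCohomology A 3) := by
  rw [← isZero_dimShift_iff A 1]
  refine isZero_H2_of_generator_of_twin (dimShift A) ((shiftIsoTop A 0).inv.hom u) hTwin
    (fun H => hNS H (h1 H))
    (fun H => (natCard_res_dimShift A H 0).trans (h2 H)) (fun H y => ?_)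
  obtain ⟨m, hm⟩ := hgen H ((shiftIso A H 0).hom.hom y)
  refine ⟨m, ?_⟩
  have hinj : Function.Injective (shiftIso A H 0).hom.hom :=
    (ModuleCat.mono_iff_injective _).1 inferInstance
  apply hinj
  rw [hm, map_zsmul, hRes]
  congr 2
  exact (congr($((shiftIsoTop A 0).inv_hom_id) u)).symm

end Top

end Fermat.Agent.S55.H84
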