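/-
S55 (Poitou–Tate), package C1 (helper84): TATE'S THEOREM IN DEGREE 3 — the unconditional
statement (request TATE-3 of C8).  (Local instance: `Tate3Local.lean`.)

  `G` finite, `A : Rep ℤ G`, `u ∈ H²(G, A)` such that for every subgroup `H ≤ G`:
  `H¹(H, A) = 0`, `#H²(H, A) = #H`, and `H²(H, A)` is generated by `res u`.
  Then `H³(G, A) = 0`.

Assembly of: `TateCore` (helper84: the extension `E_q`, TATE-core, top), `H73.DimShift`,
`H73.normSurj_dimShift` (T-b, helper73), `H55.shiftIso_res` (T-a, helper55) and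
`H40.isZero_H2_of_normSurj` (T-c/d/e = TWIN-2, helper40).
-/
import Mathlib
import Fermat.Agent.S55.H84.TateCore
import Fermat.Agent.S55.H73.NormSurjShift
import Fermat.Agent.S55.H55.DeltaRes
import Fermat.Agent.S55.H40.Tate

set_option autoImplicit false

open CategoryTheory groupCohomology Rep

namespace Fermat.Agent.S55.H84

open Fermat.Agent.S55.H73

section Tate

variable {G : Type} [Group G] [Finite G]

/-- **TATE-core.**  `B : Rep ℤ G`, `q ∈ H¹(G, B)` such that for every subgroup `H`:
`Ĥ⁰(H, B) = 0`, `#H¹(H, B) = #H` and `H¹(H, B)` is generated by `res q`.  Then `H²(G, B) = 0`. -/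
theorem isZero_H2_of_generator (B : Rep ℤ G) (q : groupCohomology B 1)
    (h0 : ∀ H : Subgroup G, NormSurj B H)
    (hcard : ∀ H : Subgroup G, Nat.card (groupCohomology (res H.subtype B) 1) = Nat.card H)
    (hgen : ∀ (H : Subgroup G) (y : groupCohomology (res H.subtype B) 1),
      ∃ m : ℤ, y = m • (map H.subtype (𝟙 (res H.subtype B)) 1).hom q) :
    Limits.IsZero (groupCohomology B 2) :=
  isZero_H2_of_generator_of_twin B q
    (fun E h0E h1E => Fermat.Agent.S55.H40.isZero_H2_of_normSurj E h0E h1E) h0 hcard hgen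

/-- **TATE-3 (Tate's theorem in degree 3).**  `A : Rep ℤ G`, `u ∈ H²(G, A)` such that for every
subgroup `H`: `H¹(H, A) = 0`, `#H²(H, A) = #H` and `H²(H, A)` is generated by `res u`.
Then `H³(G, A) = 0`. -/
theorem isZero_H3_of_fundamental_class (A : Rep ℤ G) (u : groupCohomology A 2)
    (h1 : ∀ H : Subgroup G, Limits.IsZero (groupCohomology (res H.subtype A) 1))
    (h2 : ∀ H : Subgroup G, Nat.card (groupCohomology (res H.subtype A) 2) = Nat.card H)
    (hgen : ∀ (H : Subgroup G) (y : groupCohomology (res H.subtype A) 2),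
      ∃ m : ℤ, y = m • (map H.subtype (𝟙 (res H.subtype A)) 2).hom u) :
    Limits.IsZero (groupCohomology A 3) :=
  isZero_H3_of_fundamental_class_of A u
    (fun E h0E h1E => Fermat.Agent.S55.H40.isZero_H2_of_normSurj E h0E h1E)
    (fun H hH => normSurj_dimShift A H hH)
    (fun S c => Fermat.Agent.S55.H55.shiftIso_res A S c) h1 h2 hgen

end Tate

end Fermat.Agent.S55.H84
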