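/-
S55 (Poitou–Tate), package C1 (helper84): the LOCAL instance of Tate's theorem in degree 3:
under the local Tate hypotheses of C3 (`H66.LocalTateHyp`), `H³(Gal(L/F), Lˣ) = 0` for every finite
Galois extension `L/F` of embedded local fields.
-/
import Mathlib
import Fermat.Agent.S55.H84.Tate3
import Fermat.Agent.S55.H66.TateSpec

set_option autoImplicit false

open CategoryTheory groupCohomology Rep

namespace Fermat.Agent.S55.H84

section Local

/-- **Local instance.**  Under the local Tate hypotheses of C3 (`H66.LocalTateHyp`), for every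
finite Galois extension `L/F` of embedded local fields, `H³(Gal(L/F), Lˣ) = 0`. -/
theorem isZero_H3_units_of_localTateHyp (q : ℕ) [Fact q.Prime]
    (hT : Fermat.Agent.S55.H66.LocalTateHyp q)
    (F : Type) [Field F] [Algebra ℚ_[q] F] [Algebra F (PadicAlgCl q)]
    [IsScalarTower ℚ_[q] F (PadicAlgCl q)] [FiniteDimensional ℚ_[q] F]
    (L : IntermediateField F (PadicAlgCl q)) [FiniteDimensional F L] [IsGalois F L] :
    Limits.IsZero (groupCohomology (Rep.ofAlgebraAutOnUnits F L) 3) := by
  obtain ⟨u, hu⟩ := hT F L
  exact isZero_H3_of_fundamental_class (Rep.ofAlgebraAutOnUnits F L) u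
    (fun H => @ModuleCat.isZero_of_subsingleton _ _ _ (hu H).1)
    (fun H => (hu H).2.1) (fun H y => (hu H).2.2 y)

end Local

end Fermat.Agent.S55.H84
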