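/-
S55 / Program C, package C9b, leaf (L2-H1) (helper84), part 2: the dictionary between the primes
of `𝓞 L` (`L ⊆ ℚ̄` a number field) and the valuation subrings of `ℚ̄`.

* `IsCentre L A w` : the prime `w` of `𝓞 L` is cut out by the valuation subring `A` of `ℚ̄`;
* `IsCentre.mem_of_valuation_le_one`, `IsCentre.valuation_eq_one` : `w`-integrality / `w`-units
  versus `A`-integrality / `A`-units;
* `centre` : the prime cut out by `A` (over a rational prime); `exists_isCentre` : every prime of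
  `𝓞 L` is cut out by some `A`;
* the two consumer lemmas for a finite set `S` of rational primes:
  `toQbUnit_mem_sUnits` (an `S`-unit of `L` in the sense of `H83.sUnit` is an `S`-unit of `ℚ_S` in
  the sense of `H42.sUnits`) and `mem_pDivGroup_of_pow` (`a · e = b ^ p` with `e` an `S`-unit of
  `ℚ_S` and `b` in a level unramified outside `S` forces `a ∈ V_S(L)`), the latter from the
  statement `ValE1Statement S` ("`ℓ` generates the value group of `A` on a level unramified
  outside `S`", helper56's (VAL-E1)).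
-/
import Mathlib
import Fermat.Prelude.Def_GroupCohomology_ContinuousUnramified
import Fermat.Agent.S14.H4.Dictionary
import Fermat.Agent.S55.H83.DictSurj
import Fermat.Agent.S55.H87.CountDefs
import Fermat.Agent.S55.H42.GSDefs

set_option autoImplicit false

open NumberField IsDedekindDomain

namespace Fermat.Agent.S55.H84

local notation "Qb" => AlgebraicClosure ℚ

/-- (VAL-E1): at a valuation subring `A` of `ℚ̄` over a prime `ℓ ∉ S`, every nonzero element of
a level unramified outside `S` is a power of `ℓ` times an `A`-unit. -/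
def ValE1Statement (S : Finset Nat.Primes) : Prop :=
  ∀ K : IntermediateField ℚ Qb, K.IsUnramifiedOutside S → ∀ ℓ : Nat.Primes, ℓ ∉ S →
    ∀ A : ValuationSubring Qb, A.LiesOverPrime (ℓ : ℕ) → ∀ x : Qb, x ∈ K → x ≠ 0 →
      ∃ m : ℤ, x / ((ℓ : ℕ) : Qb) ^ m ∈ A ∧ ((ℓ : ℕ) : Qb) ^ m / x ∈ A

section Dict

variable (L : IntermediateField ℚ Qb) [NumberField L]

omit [NumberField L] in
/-- Algebraic integers of `L` lie in every valuation subring of `ℚ̄`. -/
theorem coe_int_mem (A : ValuationSubring Qb) (x : 𝓞 L) : ((x : L) : Qb) ∈ A := by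
  have h1 : IsIntegral ℤ ((x : L) : Qb) :=
    map_isIntegral_int (algebraMap L Qb) (RingOfIntegers.isIntegral_coe x)
  exact S54.H94.mem_valuationSubring_of_isIntegral A h1

/-- The prime `w` of `𝓞 L` is cut out by the valuation subring `A` of `ℚ̄`. -/
def IsCentre (A : ValuationSubring Qb) (w : HeightOneSpectrum (𝓞 L)) : Prop :=
  ∀ x : 𝓞 L, x ∈ w.asIdeal ↔ ((x : L) : Qb) ∈ A.nonunits

variable {L}

omit [NumberField L] in
theorem IsCentre.valuation_eq_one_of_notMem {A : ValuationSubring Qb}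
    {w : HeightOneSpectrum (𝓞 L)} (h : IsCentre L A w) {d : 𝓞 L} (hd : d ∉ w.asIdeal) :
    A.valuation ((d : L) : Qb) = 1 := by
  have h1 : ¬ A.valuation ((d : L) : Qb) < 1 := fun hlt =>
    hd ((h d).mpr ((A.mem_nonunits_iff).mpr hlt))
  have h2 : A.valuation ((d : L) : Qb) ≤ 1 := (A.valuation_le_one_iff _).mpr (coe_int_mem L A d)
  exact le_antisymm h2 (not_lt.mp h1)

/-- `w`-integral elements of `L` are `A`-integral. -/
theorem IsCentre.mem_of_valuation_le_one {A : ValuationSubring Qb}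
    {w : HeightOneSpectrum (𝓞 L)} (h : IsCentre L A w) {x : L} (hx : w.valuation L x ≤ 1) :
    (x : Qb) ∈ A := by
  obtain ⟨n, d, hnd⟩ := w.exists_primeCompl_mul_eq_of_integer x hx
  have hd : A.valuation (((d : 𝓞 L) : L) : Qb) = 1 := h.valuation_eq_one_of_notMem d.2
  have hn : A.valuation ((n : L) : Qb) ≤ 1 := (A.valuation_le_one_iff _).mpr (coe_int_mem L A n)
  have e : (x : Qb) * (((d : 𝓞 L) : L) : Qb) = ((n : L) : Qb) := by
    have := congrArg (fun t : L => (t : Qb)) hnd
    simpa using this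
  have h3 : A.valuation (x : Qb) = A.valuation ((n : L) : Qb) := by
    rw [← e, map_mul, hd, mul_one]
  rw [← A.valuation_le_one_iff, h3]
  exact hn

/-- An element of `L` which is `w`-integral and an `A`-unit is a `w`-unit. -/
theorem IsCentre.valuation_eq_one_of_le {A : ValuationSubring Qb}
    {w : HeightOneSpectrum (𝓞 L)} (h : IsCentre L A w) {x : L} (hx : w.valuation L x ≤ 1)
    (hA : A.valuation (x : Qb) = 1) : w.valuation L x = 1 := by
  obtain ⟨n, d, hnd⟩ := w.exists_primeCompl_mul_eq_of_integer x hx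
  have hd : A.valuation (((d : 𝓞 L) : L) : Qb) = 1 := h.valuation_eq_one_of_notMem d.2
  have e : (x : Qb) * (((d : 𝓞 L) : L) : Qb) = ((n : L) : Qb) := by
    have := congrArg (fun t : L => (t : Qb)) hnd
    simpa using this
  have hn : A.valuation ((n : L) : Qb) = 1 := by rw [← e, map_mul, hA, hd, mul_one]
  have hnw : n ∉ w.asIdeal := fun hmem => by
    have := (A.mem_nonunits_iff).mp ((h n).mp hmem)
    rw [hn] at this
    exact lt_irrefl _ this
  have h1 : w.valuation L (algebraMap (𝓞 L) L n) = 1 := w.valuation_eq_one_iff_notMem.mpr hnw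
  have h2 : w.valuation L (algebraMap (𝓞 L) L (d : 𝓞 L)) = 1 :=
    w.valuation_eq_one_iff_notMem.mpr d.2
  have h3 := congrArg (w.valuation L) hnd
  rw [map_mul, h1, h2, mul_one] at h3
  exact h3

/-- `A`-units of `L` are `w`-units. -/
theorem IsCentre.valuation_eq_one {A : ValuationSubring Qb}
    {w : HeightOneSpectrum (𝓞 L)} (h : IsCentre L A w) {x : L} (hx0 : x ≠ 0)
    (hx : (x : Qb) ∈ A) (hx' : ((x : Qb))⁻¹ ∈ A) : w.valuation L x = 1 := by
  have hx0' : (x : Qb) ≠ 0 := fun h0 => hx0 (by exact_mod_cast h0)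
  have hA : A.valuation (x : Qb) = 1 := by
    have h1 : A.valuation (x : Qb) ≤ 1 := (A.valuation_le_one_iff _).mpr hx
    have h2 : A.valuation ((x : Qb))⁻¹ ≤ 1 := (A.valuation_le_one_iff _).mpr hx'
    rw [map_inv₀] at h2
    have h3 : A.valuation (x : Qb) ≠ 0 := (Valuation.ne_zero_iff _).mpr hx0'
    have h4 : 1 ≤ A.valuation (x : Qb) := by
      by_contra hlt
      rw [not_le] at hlt
      have := (one_lt_inv₀ (zero_lt_iff.mpr h3)).mpr hlt
      exact absurd h2 (not_le.mpr this)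
    exact le_antisymm h1 h4
  rcases le_total (w.valuation L x) 1 with hle | hge
  · exact h.valuation_eq_one_of_le hle hA
  · have hinv : w.valuation L x⁻¹ ≤ 1 := by
      rw [map_inv₀]
      exact inv_le_one_of_one_le₀ hge
    have hA' : A.valuation ((x⁻¹ : L) : Qb) = 1 := by
      have : ((x⁻¹ : L) : Qb) = ((x : Qb))⁻¹ := by push_cast; rfl
      rw [this, map_inv₀, hA, inv_one]
    have := h.valuation_eq_one_of_le hinv hA'
    rw [map_inv₀] at this
    have h5 := congrArg (fun t => t⁻¹) this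
    simpa using h5

variable (L)

/-- The ideal of `𝓞 L` cut out by a valuation subring of `ℚ̄`. -/
def centreIdeal (A : ValuationSubring Qb) : Ideal (𝓞 L) where
  carrier := {x | ((x : L) : Qb) ∈ A.nonunits}
  add_mem' := by
    intro x y hx hy
    rw [Set.mem_ofPred_eq, A.mem_nonunits_iff] at hx hy ⊢
    have e : (((x + y : 𝓞 L) : L) : Qb) = ((x : L) : Qb) + ((y : L) : Qb) := by push_cast; rfl
    rw [e]
    exact lt_of_le_of_lt (A.valuation.map_add _ _) (max_lt hx hy)
  zero_mem' := by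
    rw [Set.mem_ofPred_eq, A.mem_nonunits_iff]
    have e : (((0 : 𝓞 L) : L) : Qb) = 0 := by push_cast; rfl
    rw [e, map_zero]
    exact zero_lt_one
  smul_mem' := by
    intro c x hx
    rw [Set.mem_ofPred_eq, A.mem_nonunits_iff] at hx ⊢
    have e : (((c • x : 𝓞 L) : L) : Qb) = ((c : L) : Qb) * ((x : L) : Qb) := by
      rw [smul_eq_mul]; push_cast; rfl
    rw [e, map_mul]
    have hc : A.valuation ((c : L) : Qb) ≤ 1 := (A.valuation_le_one_iff _).mpr (coe_int_mem L A c)
    calc A.valuation ((c : L) : Qb) * A.valuation ((x : L) : Qb)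
        ≤ 1 * A.valuation ((x : L) : Qb) := mul_le_mul_left hc _
      _ < 1 := by rwa [one_mul]

omit [NumberField L] in
theorem mem_centreIdeal {A : ValuationSubring Qb} {x : 𝓞 L} :
    x ∈ centreIdeal L A ↔ ((x : L) : Qb) ∈ A.nonunits := Iff.rfl

omit [NumberField L] in
theorem centreIdeal_isPrime (A : ValuationSubring Qb) : (centreIdeal L A).IsPrime := by
  refine ⟨?_, ?_⟩
  · rw [Ideal.ne_top_iff_one, mem_centreIdeal, A.mem_nonunits_iff]
    have e : (((1 : 𝓞 L) : L) : Qb) = 1 := by push_cast; rfl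
    rw [e, map_one]
    exact lt_irrefl _
  · intro x y hxy
    rw [mem_centreIdeal, A.mem_nonunits_iff] at hxy
    have e : (((x * y : 𝓞 L) : L) : Qb) = ((x : L) : Qb) * ((y : L) : Qb) := by push_cast; rfl
    rw [e, map_mul] at hxy
    by_contra hcon
    push Not at hcon
    obtain ⟨hx, hy⟩ := hcon
    rw [mem_centreIdeal, A.mem_nonunits_iff, not_lt] at hx hy
    have hx1 : A.valuation ((x : L) : Qb) = 1 :=
      le_antisymm ((A.valuation_le_one_iff _).mpr (coe_int_mem L A x)) hx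
    have hy1 : A.valuation ((y : L) : Qb) = 1 :=
      le_antisymm ((A.valuation_le_one_iff _).mpr (coe_int_mem L A y)) hy
    rw [hx1, hy1, mul_one] at hxy
    exact lt_irrefl _ hxy

omit [NumberField L] in
theorem natCast_mem_centreIdeal {A : ValuationSubring Qb} {q : ℕ} (hA : A.LiesOverPrime q) :
    ((q : ℕ) : 𝓞 L) ∈ centreIdeal L A := by
  rw [mem_centreIdeal]
  have e : ((((q : ℕ) : 𝓞 L) : L) : Qb) = (q : Qb) := by push_cast; rfl
  rw [e]
  exact hA

/-- The prime of `𝓞 L` cut out by a valuation subring of `ℚ̄` over a rational prime. -/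
def centre (A : ValuationSubring Qb) {q : ℕ} (hq : q.Prime) (hA : A.LiesOverPrime q) :
    HeightOneSpectrum (𝓞 L) where
  asIdeal := centreIdeal L A
  isPrime := centreIdeal_isPrime L A
  ne_bot := by
    intro hbot
    have h1 := natCast_mem_centreIdeal L hA
    rw [hbot, Ideal.mem_bot] at h1
    have h2 : (q : 𝓞 L) ≠ 0 := Nat.cast_ne_zero.mpr hq.ne_zero
    exact h2 h1

omit [NumberField L] in
theorem isCentre_centre (A : ValuationSubring Qb) {q : ℕ} (hq : q.Prime)
    (hA : A.LiesOverPrime q) : IsCentre L A (centre L A hq hA) := fun _ => Iff.rfl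

/-- Every prime of `𝓞 L` is cut out by a valuation subring of `ℚ̄` over a rational prime. -/
theorem exists_isCentre (w : HeightOneSpectrum (𝓞 L)) :
    ∃ (q : ℕ) (_ : q.Prime) (A : ValuationSubring Qb), A.LiesOverPrime q ∧
      ((q : ℕ) : 𝓞 L) ∈ w.asIdeal ∧ IsCentre L A w := by
  obtain ⟨q, hq, hqw⟩ := H83.exists_prime_natCast_mem w
  let _ : Algebra (𝓞 L) (integralClosure ℤ Qb) := (S14.H4.inclInt L).toAlgebra
  have hint : Algebra.IsIntegral (𝓞 L) (integralClosure ℤ Qb) := ⟨fun b => by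
    have hb : IsIntegral ℤ b := Algebra.IsIntegral.isIntegral b
    exact hb.tower_top⟩
  obtain ⟨Q, -, hQprime, hQP⟩ := Ideal.exists_ideal_over_prime_of_isIntegral w.asIdeal
    (⊥ : Ideal (integralClosure ℤ Qb)) (by
      have h0 : algebraMap (𝓞 L) (integralClosure ℤ Qb) = S14.H4.inclInt L := rfl
      rw [h0, Ideal.comap_bot_of_injective _ (S14.H4.inclInt_injective L)]
      exact bot_le)
  have hmem : ∀ x : 𝓞 L, S14.H4.inclInt L x ∈ Q ↔ x ∈ w.asIdeal := by
    intro x
    rw [← hQP]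
    rfl
  have hQℓ : ∀ a : ℤ, algebraMap ℤ (integralClosure ℤ Qb) a ∈ Q → (q : ℤ) ∣ a := by
    intro a ha
    by_contra hnd
    have ha' : (a : 𝓞 L) ∈ w.asIdeal := by
      rw [← hmem]
      have h1 : S14.H4.inclInt L (a : 𝓞 L) = algebraMap ℤ (integralClosure ℤ Qb) a := by
        rw [map_intCast, eq_intCast]
      rw [h1]
      exact ha
    have hcop : IsCoprime (q : ℤ) a :=
      (Nat.prime_iff_prime_int.mp hq).irreducible.coprime_iff_not_dvd.mpr hnd
    obtain ⟨u, v, huv⟩ := hcop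
    have h1 : ((u * q + v * a : ℤ) : 𝓞 L) ∈ w.asIdeal := by
      push_cast
      exact w.asIdeal.add_mem (w.asIdeal.mul_mem_left _ hqw) (w.asIdeal.mul_mem_left _ ha')
    rw [huv] at h1
    exact w.isPrime.ne_top ((Ideal.eq_top_iff_one _).mpr (by simpa using h1))
  have hℓQ : (q : integralClosure ℤ Qb) ∈ Q := by
    have h1 : S14.H4.inclInt L (q : 𝓞 L) = (q : integralClosure ℤ Qb) := map_natCast _ _
    rw [← h1, hmem]
    exact hqw
  have h1Q : (1 : integralClosure ℤ Qb) ∉ Q := (Ideal.ne_top_iff_one Q).mp hQprime.ne_top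
  refine ⟨q, hq, S14.H4.valSubring Q q hq hQℓ,
    S14.H4.liesOverPrime_valSubring Q q hq hQℓ hℓQ, hqw, fun x => ⟨fun hx => ?_, fun hx => ?_⟩⟩
  · exact S14.H4.mem_nonunits_valSubring Q q hq hQℓ ((x : L) : Qb) 1 (S14.H4.inclInt L x) h1Q
      ((hmem x).mpr hx) (by simp)
  · by_contra hxw
    have hxQ : S14.H4.inclInt L x ∉ Q := fun h => hxw ((hmem x).mp h)
    have hinv : (((x : L) : Qb))⁻¹ ∈ S14.H4.valSubring Q q hq hQℓ := by
      rw [S14.H4.mem_valSubring_iff]
      refine ⟨S14.H4.inclInt L x, 1, hxQ, ?_⟩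
      have hx0 : ((x : L) : Qb) ≠ 0 := by
        intro h0
        apply hxQ
        have : S14.H4.inclInt L x = 0 := Subtype.ext (by simpa using h0)
        rw [this]
        exact Q.zero_mem
      rw [S14.H4.coe_inclInt]
      simp [hx0]
    have h2 := (ValuationSubring.mem_nonunits_iff _).mp hx
    have h3 := (ValuationSubring.valuation_le_one_iff _ _).mpr hinv
    rw [map_inv₀] at h3
    have h4 : (S14.H4.valSubring Q q hq hQℓ).valuation ((x : L) : Qb) ≠ 0 := by
      intro h0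
      rw [h0, inv_zero] at h3
      rw [h0] at h2
      have hx0 : ((x : L) : Qb) = 0 := (Valuation.zero_iff _).mp h0
      apply hxQ
      have : S14.H4.inclInt L x = 0 := Subtype.ext (by simpa using hx0)
      rw [this]
      exact Q.zero_mem
    have h5 := (one_lt_inv₀ (zero_lt_iff.mpr h4)).mpr h2
    exact absurd h3 (not_le.mpr h5)

end Dict

/-! ### Primes above and outside `S` -/

section Places

variable (L : IntermediateField ℚ Qb) [NumberField L] {S : Finset Nat.Primes}

/-- A prime cut out by a valuation subring over a rational prime outside `S` does not lie above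
`S`. -/
theorem IsCentre.notMem_placesOver {A : ValuationSubring Qb} {w : HeightOneSpectrum (𝓞 L)}
    (h : IsCentre L A w) {q : Nat.Primes} (hq : q ∉ S) (hA : A.LiesOverPrime (q : ℕ)) :
    w ∉ H87.placesOver L S := by
  intro hw
  rw [H87.mem_placesOver] at hw
  obtain ⟨q', hq', hmem⟩ := hw
  have hne : (q' : ℕ) ≠ (q : ℕ) := fun e => hq (by
    have : q' = q := Subtype.ext e
    rwa [← this])
  have h1 : ((((((q' : ℕ) : ℤ) : 𝓞 L)) : L) : Qb) ∈ A.nonunits := (h _).mp hmem
  have e1 : ((((((q' : ℕ) : ℤ) : 𝓞 L)) : L) : Qb) = ((q' : ℕ) : Qb) := by push_cast; rfl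
  rw [e1, A.mem_nonunits_iff] at h1
  have h2 : A.valuation ((q : ℕ) : Qb) < 1 := (A.mem_nonunits_iff).mp hA
  have hcop : IsCoprime ((q' : ℕ) : ℤ) ((q : ℕ) : ℤ) := by
    rw [Int.isCoprime_iff_gcd_eq_one, Int.gcd_natCast_natCast]
    exact (Nat.coprime_primes q'.2 q.2).mpr hne
  obtain ⟨u, v, huv⟩ := hcop
  have h3 : ((u : Qb)) * ((q' : ℕ) : Qb) + (v : Qb) * ((q : ℕ) : Qb) = 1 := by
    have := congrArg (fun t : ℤ => (t : Qb)) huv
    push_cast at this
    exact this
  have hu : A.valuation (u : Qb) ≤ 1 :=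
    (A.valuation_le_one_iff _).mpr (intCast_mem A u)
  have hv : A.valuation (v : Qb) ≤ 1 :=
    (A.valuation_le_one_iff _).mpr (intCast_mem A v)
  have h4 : A.valuation (1 : Qb) < 1 := by
    rw [← h3]
    refine lt_of_le_of_lt (A.valuation.map_add _ _) (max_lt ?_ ?_)
    · rw [map_mul]
      calc A.valuation (u : Qb) * A.valuation ((q' : ℕ) : Qb)
          ≤ 1 * A.valuation ((q' : ℕ) : Qb) := mul_le_mul_left hu _
        _ < 1 := by rwa [one_mul]
    · rw [map_mul]
      calc A.valuation (v : Qb) * A.valuation ((q : ℕ) : Qb)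
          ≤ 1 * A.valuation ((q : ℕ) : Qb) := mul_le_mul_left hv _
        _ < 1 := by rwa [one_mul]
  rw [map_one] at h4
  exact lt_irrefl _ h4

/-- Every prime of `𝓞 L` not above `S` is cut out by a valuation subring of `ℚ̄` over a rational
prime outside `S`. -/
theorem exists_isCentre_of_notMem_placesOver {w : HeightOneSpectrum (𝓞 L)}
    (hw : w ∉ H87.placesOver L S) :
    ∃ (q : Nat.Primes) (A : ValuationSubring Qb), q ∉ S ∧ A.LiesOverPrime (q : ℕ) ∧
      IsCentre L A w := by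
  obtain ⟨q, hq, A, hA, hqw, hc⟩ := exists_isCentre L w
  refine ⟨⟨q, hq⟩, A, fun hqS => hw ?_, hA, hc⟩
  rw [H87.mem_placesOver]
  refine ⟨⟨q, hq⟩, hqS, ?_⟩
  have e : (((q : ℕ) : ℤ) : 𝓞 L) = ((q : ℕ) : 𝓞 L) := by push_cast; rfl
  rw [e]
  exact hqw

/-- The unit of `ℚ̄` underlying a unit of `L`. -/
noncomputable def toQbUnit : Lˣ →* Qbˣ := Units.map (algebraMap L Qb : L →* Qb)

omit [NumberField L] in
@[simp] theorem coe_toQbUnit (x : Lˣ) : ((toQbUnit L x : Qbˣ) : Qb) = ((x : L) : Qb) := rfl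

omit [NumberField L] in
theorem toQbUnit_injective : Function.Injective (toQbUnit L) := by
  intro x y h
  have h1 : ((x : L) : Qb) = ((y : L) : Qb) := congrArg (fun u : Qbˣ => (u : Qb)) h
  exact Units.ext (Subtype.ext h1)

/-- An `S`-unit of `L` (a unit at all primes of `𝓞 L` not above `S`) is an `S`-unit of `ℚ_S`,
for `L` unramified outside `S`. -/
theorem toQbUnit_mem_sUnits (hL : L.IsUnramifiedOutside S) {ε : Lˣ}
    (hε : ε ∈ H83.sUnit L (H87.placesOver L S)) : toQbUnit L ε ∈ H42.sUnits S := by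
  refine ⟨⟨L, hL, (ε : L).2⟩, fun q hq A hA => ?_⟩
  have hc := isCentre_centre L A q.2 hA
  have hw : centre L A q.2 hA ∉ H87.placesOver L S := hc.notMem_placesOver L hq hA
  have h1 : (centre L A q.2 hA).valuation L (ε : L) = 1 := hε _ (by simpa using hw)
  have h2 : (centre L A q.2 hA).valuation L ((ε⁻¹ : Lˣ) : L) = 1 := by
    rw [Units.val_inv_eq_inv_val, map_inv₀, h1, inv_one]
  refine ⟨hc.mem_of_valuation_le_one h1.le, ?_⟩
  rw [← map_inv]
  exact hc.mem_of_valuation_le_one h2.le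

theorem ordv_zpow (w : HeightOneSpectrum (𝓞 L)) (x : Lˣ) (n : ℤ) :
    H83.ordv L w (x ^ n) = n * H83.ordv L w x := by
  rw [H83.ordv, map_zpow, toAdd_zpow, smul_eq_mul]
  rfl

/-- **The valuation criterion for `V_S(L)`**: if `a ∈ Lˣ`, `e` is an `S`-unit of `ℚ_S`, `b` lies
in a level unramified outside `S` and `a · e = b ^ p`, then `p ∣ ord_w a` at all primes `w` of
`𝓞 L` not above `S`. -/
theorem mem_pDivGroup_of_pow (hval : ValE1Statement S) {p : ℕ} (a : Lˣ) (b e : Qbˣ)
    (he : e ∈ H42.sUnits S) {K : IntermediateField ℚ Qb} (hK : K.IsUnramifiedOutside S)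
    (hb : (b : Qb) ∈ K) (hab : toQbUnit L a * e = b ^ p) :
    a ∈ H87.pDivGroup L (H87.placesOver L S) p := by
  intro w hw
  obtain ⟨q, A, hq, hA, hc⟩ := exists_isCentre_of_notMem_placesOver L hw
  obtain ⟨m, hm1, hm2⟩ := hval K hK q hq A hA (b : Qb) hb b.ne_zero
  obtain ⟨he1, he2⟩ := he.2 q hq A hA
  have hq0 : ((q : ℕ) : L) ≠ 0 := Nat.cast_ne_zero.mpr q.2.ne_zero
  have hq0' : ((q : ℕ) : Qb) ≠ 0 := Nat.cast_ne_zero.mpr q.2.ne_zero
  have hab' : ((a : L) : Qb) * (e : Qb) = (b : Qb) ^ p := by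
    have := congrArg (fun u : Qbˣ => (u : Qb)) hab
    simpa using this
  have ha' : ((a : L) : Qb) = (b : Qb) ^ p * ((e⁻¹ : Qbˣ) : Qb) := by
    rw [← hab', mul_assoc, ← Units.val_mul, mul_inv_cancel, Units.val_one, mul_one]
  set x : Lˣ := a * (Units.mk0 ((q : ℕ) : L) hq0) ^ (-((p : ℤ) * m)) with hx
  have hxQ : ((x : L) : Qb) = ((a : L) : Qb) * ((q : ℕ) : Qb) ^ (-((p : ℤ) * m)) := by
    rw [hx, Units.val_mul, Units.val_zpow_eq_zpow_val, Units.val_mk0]
    push_cast
    rfl
  have e1 : ((x : L) : Qb) = ((b : Qb) / ((q : ℕ) : Qb) ^ m) ^ p * ((e⁻¹ : Qbˣ) : Qb) := by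
    rw [hxQ, ha', div_pow, ← zpow_natCast (((q : ℕ) : Qb) ^ m) p, ← zpow_mul, zpow_neg,
      mul_comm (p : ℤ) m]
    ring
  have e2 : (((x : L) : Qb))⁻¹ = (((q : ℕ) : Qb) ^ m / (b : Qb)) ^ p * (e : Qb) := by
    rw [e1, mul_inv, ← inv_pow, inv_div, Units.val_inv_eq_inv_val, inv_inv]
  have hxA : ((x : L) : Qb) ∈ A := by
    rw [e1]
    exact A.mul_mem _ _ (pow_mem hm1 p) he2
  have hxA' : (((x : L) : Qb))⁻¹ ∈ A := by
    rw [e2]
    exact A.mul_mem _ _ (pow_mem hm2 p) he1
  have h1 : w.valuation L (x : L) = 1 := hc.valuation_eq_one x.ne_zero hxA hxA'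
  have h2 : H83.ordv L w x = 0 := (H83.ordv_eq_zero_iff w x).mpr h1
  rw [hx, H83.ordv_mul, ordv_zpow] at h2
  refine ⟨m * H83.ordv L w (Units.mk0 ((q : ℕ) : L) hq0), ?_⟩
  linear_combination h2

end Places

end Fermat.Agent.S55.H84
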