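/-
S55 / Program C, package C9b, leaf (L2-H1) (helper84), part 1: Hilbert 90 for cocycles that are
constant modulo a normal subgroup of finite index (Mathlib only).

`G` acts on a field `K` by field automorphisms, `U ⊴ G` of finite index is exactly the subgroup
fixing `K^U` pointwise, and `u : G → K` is a nowhere vanishing `1`-cocycle
(`u (g h) = u g * g (u h)`) with `u (g s) = u g` for `s ∈ U`.  Then `u g = g b / b` for some
`b ≠ 0` (`hilbert90_of_finiteIndex`).  Proof: Dedekind's independence of the characters
`x ↦ q x` of `(K^U, *)`, `q ∈ G / U`, and the Poincaré series `∑_q u q * q c`.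
-/
import Mathlib

set_option autoImplicit false

namespace Fermat.Agent.S55.H84

section H90

variable {G K : Type*} [Group G] [Field K] [MulSemiringAction G K]

/-- The multiplicative monoid of the elements of `K` fixed by a subgroup `U`. -/
def fixedMonoid (U : Subgroup G) : Submonoid K where
  carrier := {x | ∀ s ∈ U, s • x = x}
  mul_mem' := by
    intro x y hx hy s hs
    rw [smul_mul', hx s hs, hy s hs]
  one_mem' := fun s _ => smul_one s

theorem mem_fixedMonoid {U : Subgroup G} {x : K} :
    x ∈ fixedMonoid (K := K) U ↔ ∀ s ∈ U, s • x = x := Iff.rfl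

/-- The character `x ↦ g x` of the monoid of `U`-fixed elements. -/
def fixedChar (U : Subgroup G) (g : G) : fixedMonoid (K := K) U →* K where
  toFun x := g • (x : K)
  map_one' := smul_one g
  map_mul' x y := smul_mul' g (x : K) (y : K)

theorem fixedChar_apply (U : Subgroup G) (g : G) (x : fixedMonoid (K := K) U) :
    fixedChar U g x = g • (x : K) := rfl

/-- **Hilbert 90** for cocycles constant modulo a normal subgroup `U` of finite index which is
the full pointwise stabiliser of its fixed elements. -/
theorem hilbert90_of_finiteIndex (U : Subgroup G) [U.Normal] [U.FiniteIndex] (u : G → K)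
    (hu : ∀ g, u g ≠ 0) (hcoc : ∀ g h : G, u (g * h) = u g * g • u h)
    (hlc : ∀ g s : G, s ∈ U → u (g * s) = u g)
    (hsep : ∀ g : G, (∀ x : K, (∀ s ∈ U, s • x = x) → g • x = x) → g ∈ U) :
    ∃ b : K, b ≠ 0 ∧ ∀ g : G, u g * b = g • b := by
  classical
  let _ : Fintype (G ⧸ U) := Subgroup.fintypeQuotientOfFiniteIndex
  -- the characters attached to the cosets are pairwise distinct
  have hχ : Function.Injective
      (fun q : G ⧸ U => fixedChar (K := K) U (Quotient.out q)) := by
    intro q q' h
    have hmem : (Quotient.out q)⁻¹ * Quotient.out q' ∈ U := by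
      refine hsep _ fun x hx => ?_
      have h1 := DFunLike.congr_fun h (⟨x, hx⟩ : fixedMonoid (K := K) U)
      have h2 : (Quotient.out q : G) • x = (Quotient.out q' : G) • x := h1
      rw [mul_smul, ← h2, inv_smul_smul]
    have h3 : ((Quotient.out q : G) : G ⧸ U) = ((Quotient.out q' : G) : G ⧸ U) :=
      QuotientGroup.eq.mpr hmem
    rwa [QuotientGroup.out_eq', QuotientGroup.out_eq'] at h3
  have hli : LinearIndependent K
      (fun q : G ⧸ U => (fixedChar (K := K) U (Quotient.out q) : fixedMonoid (K := K) U → K)) :=
    (linearIndependent_monoidHom (fixedMonoid (K := K) U) K).comp _ hχ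
  -- the Poincaré series does not vanish identically
  have hex : ∃ c : fixedMonoid (K := K) U,
      ∑ q : G ⧸ U, u (Quotient.out q) * (Quotient.out q : G) • (c : K) ≠ 0 := by
    by_contra hcon
    push Not at hcon
    have h0 : ∑ q : G ⧸ U, u (Quotient.out q) •
        (fixedChar (K := K) U (Quotient.out q) : fixedMonoid (K := K) U → K) = 0 := by
      funext c
      rw [Finset.sum_apply]
      exact hcon c
    exact hu _ (Fintype.linearIndependent_iff.mp hli (fun q => u (Quotient.out q)) h0
      ((1 : G) : G ⧸ U))
  obtain ⟨c, hc⟩ := hex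
  set β : K := ∑ q : G ⧸ U, u (Quotient.out q) * (Quotient.out q : G) • (c : K) with hβ
  -- the transformation rule
  have key : ∀ g : G, u g * g • β = β := by
    intro g
    have hterm : ∀ q : G ⧸ U,
        u g * g • (u (Quotient.out q) * (Quotient.out q : G) • (c : K)) =
          u (Quotient.out (g • q)) * (Quotient.out (g • q) : G) • (c : K) := by
      intro q
      have hs : (Quotient.out (g • q))⁻¹ * (g * Quotient.out q) ∈ U := by
        rw [← QuotientGroup.eq, QuotientGroup.out_eq']
        have e : ((g * Quotient.out q : G) : G ⧸ U) = g • ((Quotient.out q : G) : G ⧸ U) := rfl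
        rw [e, QuotientGroup.out_eq']
      have e1 : g * Quotient.out q =
          Quotient.out (g • q) * ((Quotient.out (g • q))⁻¹ * (g * Quotient.out q)) := by
        rw [mul_inv_cancel_left]
      have e2 : u (g * Quotient.out q) = u (Quotient.out (g • q)) := by
        rw [e1]
        exact hlc _ _ hs
      have e3 : g • (Quotient.out q : G) • (c : K) = (Quotient.out (g • q) : G) • (c : K) := by
        rw [← mul_smul, e1, mul_smul, c.2 _ hs]
      rw [smul_mul', e3, ← mul_assoc, ← hcoc, e2]
    rw [hβ, Finset.smul_sum, Finset.mul_sum]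
    simp_rw [hterm]
    exact Equiv.sum_comp (MulAction.toPerm g)
      fun q : G ⧸ U => u (Quotient.out q) * (Quotient.out q : G) • (c : K)
  refine ⟨β⁻¹, inv_ne_zero hc, fun g => ?_⟩
  rw [smul_inv'']
  calc u g * β⁻¹ = u g * (u g * g • β)⁻¹ := by rw [key g]
    _ = (g • β)⁻¹ := by rw [mul_inv, ← mul_assoc, mul_inv_cancel₀ (hu g), one_mul]

end H90

end Fermat.Agent.S55.H84
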