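/-
S55 / Program C, package C9b, leaf (L2-H1) (helper84), part 3: THE INJECTION
`H¹_lc(G_S(L), E_S)[p] ↪ W_S(L) = V_S(L) / (E_S(L) · Lˣᵖ)` AND THE HASSE COUNT.

`L ⊆ ℚ̄` a number field unramified outside `S ∋ p`, `Γ = Gal(ℚ̄/L)` with the level datum
`H42.fieldDatum S L`, coefficients `E_S = H42.ESx S` restricted to `Γ`.

For a level-constant `1`-cocycle `u : Γ → E_S` with `p · [u] = 0`:  `u ^ p = d e` with `e ∈ E_S`,
`u = d b` with `b ∈ ℚ_Sˣ` (Hilbert 90, `exists_h90`), so `a := b ^ p / e` is fixed by `Γ`, lies in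
`L`, and `p ∣ ord_w a` for all primes `w` of `𝓞 L` not above `S` (`mem_pDivGroup_of_pow`, from
(VAL-E1)).  The class of `a` in `W_S(L)` determines `[u]` (`h1Rel_injective`: if
`a' = a · ε · c ^ p` then `β = b' / (b c)` is a `p`-th root of an `S`-unit, hence an `S`-unit of
`ℚ_S`, and `u' - u = d β`).

* `exists_injective_torsion` : the injection (L2-H1);
* `natCard_WS`               : `#W_S(L) = p ^ cIdx` when `W_S(L)` is finite;
* `hasse_count`              : `dim Y ≤ cNum p S L` for `Y ⊆ δ (H¹_lc(G_S(L), E_S))`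
  (with `H87.finrank_le_of_torsion` and `H74.hlc_torsion`).

Hypotheses left to the consumers: `ValE1Statement S` (helper56's (VAL-E1)) and the finiteness of
`W_S(L)` (`relIndex ≠ 0`).
-/
import Fermat.Agent.S55.H84.H1ESH90
import Fermat.Agent.S55.H84.H1ESDict
import Fermat.Agent.S55.H68.Bridge1Core
import Fermat.Agent.S55.H74.LcTors
import Fermat.Agent.S55.H87.HasseCount

set_option autoImplicit false

open CategoryTheory NumberField IsDedekindDomain groupCohomology

namespace Fermat.Agent.S55.H84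

local notation "Qb" => AlgebraicClosure ℚ
local notation "GQ" => (AlgebraicClosure ℚ ≃ₐ[ℚ] AlgebraicClosure ℚ)

noncomputable section

section CommAux

variable {G : Type*} [CommGroup G]

theorem comm_aux1 (u b e : G) (p : ℕ) : (u * b) ^ p * (u ^ p * e)⁻¹ = b ^ p * e⁻¹ := by
  rw [mul_pow, mul_inv, mul_mul_mul_comm, mul_inv_cancel, one_mul]

theorem comm_aux2 {A A' E C e e' b b' : G} {p : ℕ}
    (h : A * e = b ^ p) (h' : A' * e' = b' ^ p) (hE : E * C ^ p = A⁻¹ * A') :
    (b' * b⁻¹ * C⁻¹) ^ p = E * e' * e⁻¹ := by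
  have h1 := congrArg Additive.ofMul h
  have h2 := congrArg Additive.ofMul h'
  have h3 := congrArg Additive.ofMul hE
  simp only [ofMul_mul, ofMul_inv, ofMul_pow] at h1 h2 h3
  apply Additive.ofMul.injective
  simp only [ofMul_mul, ofMul_inv, ofMul_pow, smul_add, smul_neg]
  linear_combination (norm := abel) h1 - h2 - h3

theorem comm_aux3 (u u' b b' C : G) :
    (u' * b' * (u * b)⁻¹ * C⁻¹) * (b' * b⁻¹ * C⁻¹)⁻¹ = u' * u⁻¹ := by
  apply Additive.ofMul.injective
  simp only [ofMul_mul, ofMul_inv]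
  abel

end CommAux

section Val

variable (S : Finset Nat.Primes) (L : IntermediateField ℚ Qb)

/-- The unit of `ℚ̄` underlying an element of `E_S`, restricted to `Gal(ℚ̄/L)`. -/
def esVal (m : H42.resF L (H42.ESx S)) : Qbˣ := H42.unitsRep.val (show H42.ESx S from m)

/-- The element of `E_S` (restricted to `Gal(ℚ̄/L)`) given by an `S`-unit of `ℚ_S`. -/
def esMk (u : Qbˣ) (hu : u ∈ H42.sUnits S) : H42.resF L (H42.ESx S) :=
  (H42.unitsRep.mk u hu : H42.ESx S)

variable {S L}

theorem esVal_mem (m : H42.resF L (H42.ESx S)) : esVal S L m ∈ H42.sUnits S :=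
  H42.unitsRep.val_mem _

@[simp] theorem esVal_esMk (u : Qbˣ) (hu : u ∈ H42.sUnits S) : esVal S L (esMk S L u hu) = u := rfl

theorem esVal_injective : Function.Injective (esVal S L) := fun _ _ h =>
  H42.unitsRep.val_injective h

theorem esVal_add (m m' : H42.resF L (H42.ESx S)) :
    esVal S L (m + m') = esVal S L m * esVal S L m' := rfl

theorem esVal_neg (m : H42.resF L (H42.ESx S)) : esVal S L (-m) = (esVal S L m)⁻¹ := rfl

theorem esVal_sub (m m' : H42.resF L (H42.ESx S)) :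
    esVal S L (m - m') = esVal S L m * (esVal S L m')⁻¹ := by
  rw [sub_eq_add_neg, esVal_add, esVal_neg]

theorem esVal_nsmul (n : ℕ) (m : H42.resF L (H42.ESx S)) :
    esVal S L (n • m) = esVal S L m ^ n :=
  H42.unitsRep.val_nsmul n _

theorem esVal_ρ (g : ↥L.fixingSubgroup) (m : H42.resF L (H42.ESx S)) :
    esVal S L ((H42.resF L (H42.ESx S)).ρ g m) = (g : GQ) • esVal S L m := rfl

end Val

section Coc

variable (S : Finset Nat.Primes) (L : IntermediateField ℚ Qb)

/-- The unit-valued function of a level-constant `1`-cocycle of `G_S(L)` in `E_S`. -/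
def cocUnit (z : H49.cyc (H49.lcComplex (H42.fieldDatum S L) (H42.resF L (H42.ESx S))) 1)
    (g : ↥L.fixingSubgroup) : Qbˣ :=
  esVal S L (H68.ofCyc₁ (H42.fieldDatum S L) (H42.resF L (H42.ESx S)) z g)

variable {S L}

theorem cocUnit_mul (z : H49.cyc (H49.lcComplex (H42.fieldDatum S L) (H42.resF L (H42.ESx S))) 1)
    (g h : ↥L.fixingSubgroup) :
    cocUnit S L z (g * h) = cocUnit S L z g * (g : GQ) • cocUnit S L z h := by
  have h1 := (mem_cocycles₁_def _).1
    (H68.ofCyc₁_mem_cocycles₁ (H42.fieldDatum S L) (H42.resF L (H42.ESx S)) z) g h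
  have h2 : H68.ofCyc₁ (H42.fieldDatum S L) (H42.resF L (H42.ESx S)) z (g * h) =
      H68.ofCyc₁ (H42.fieldDatum S L) (H42.resF L (H42.ESx S)) z g +
        (H42.resF L (H42.ESx S)).ρ g
          (H68.ofCyc₁ (H42.fieldDatum S L) (H42.resF L (H42.ESx S)) z h) := by
    linear_combination (norm := abel) -h1
  unfold cocUnit
  rw [h2, esVal_add, esVal_ρ]

theorem cocUnit_one (z : H49.cyc (H49.lcComplex (H42.fieldDatum S L) (H42.resF L (H42.ESx S))) 1) :
    cocUnit S L z 1 = 1 := by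
  have h := cocUnit_mul z 1 1
  rw [mul_one, OneMemClass.coe_one, one_smul] at h
  exact (mul_eq_left.mp h.symm)

/-- Level-constancy of the unit-valued function. -/
theorem exists_level_cocUnit
    (z : H49.cyc (H49.lcComplex (H42.fieldDatum S L) (H42.resF L (H42.ESx S))) 1) :
    ∃ N : IntermediateField ℚ Qb, N.IsUnramifiedOutside S ∧ (N.fixingSubgroup).Normal ∧
      ∀ g s : ↥L.fixingSubgroup, (s : GQ) ∈ N.fixingSubgroup →
        cocUnit S L z (g * s) = cocUnit S L z g := by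
  obtain ⟨N, hN, hnor, h1, -⟩ :=
    H68.isLC_lcValC (H42.fieldDatum S L) (H42.resF L (H42.ESx S)) z.1
  refine ⟨N, hN, hnor, fun g s hs => ?_⟩
  have := h1 (fun _ => g) (fun _ => s) (fun _ => hs)
  exact congrArg (esVal S L) this

/-- Constant `0`-cochains are level-constant. -/
theorem isLC_const (a : H42.resF L (H42.ESx S)) :
    H49.IsLC (H42.fieldDatum S L) (H42.resF L (H42.ESx S))
      (fun _ : Fin 0 → ↥L.fixingSubgroup => a) := by
  obtain ⟨N, hN, hnor, h3⟩ := H42.resF_smooth_of (S := S) L (M := H42.ESx S) H42.ESx_smooth a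
  exact ⟨N, hN, hnor, fun _ _ _ => rfl, fun _ s hs => h3 s hs⟩

end Coc

section Main

variable {S : Finset Nat.Primes} {L : IntermediateField ℚ Qb}

/-- **Hilbert 90** for a level-constant `1`-cocycle of `G_S(L)` with values in `E_S`: it is the
coboundary of a unit `b` of a level unramified outside `S`. -/
theorem exists_h90 (hL : L.IsUnramifiedOutside S)
    (z : H49.cyc (H49.lcComplex (H42.fieldDatum S L) (H42.resF L (H42.ESx S))) 1) :
    ∃ (b : Qbˣ) (K : IntermediateField ℚ Qb), K.IsUnramifiedOutside S ∧ (b : Qb) ∈ K ∧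
      ∀ g : ↥L.fixingSubgroup, cocUnit S L z g * b = (g : GQ) • b := by
  obtain ⟨N, hN, hnor, hlc⟩ := exists_level_cocUnit z
  have hUn : ((H42.fieldDatum S L).sub N).Normal := (H42.fieldDatum S L).sub_normal hnor
  have hUf : ((H42.fieldDatum S L).sub N).FiniteIndex := H42.fieldDatum_finiteIndex S L N hN
  obtain ⟨b, hb0, hb⟩ := hilbert90_of_finiteIndex (K := Qb) ((H42.fieldDatum S L).sub N)
    (fun g => ((cocUnit S L z g : Qbˣ) : Qb)) (fun g => Units.ne_zero _)
    (fun g h => by rw [cocUnit_mul, Units.val_mul]; rfl)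
    (fun g s hs => by rw [hlc g s hs])
    (fun g hg => by
      show (g : GQ) ∈ N.fixingSubgroup
      rw [IntermediateField.mem_fixingSubgroup_iff]
      intro x hx
      exact hg x fun s hs => (IntermediateField.mem_fixingSubgroup_iff N _).mp hs x hx)
  refine ⟨Units.mk0 b hb0, L ⊔ N, hL.sup hN, ?_, fun g => ?_⟩
  · rw [Units.val_mk0, ← InfiniteGalois.fixedField_fixingSubgroup (L ⊔ N),
      IntermediateField.mem_fixedField_iff]
    intro σ hσ
    rw [IntermediateField.fixingSubgroup_sup] at hσ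
    have h1 := hb ⟨σ, hσ.1⟩
    have h2 : cocUnit S L z ⟨σ, hσ.1⟩ = 1 := by
      have := hlc 1 ⟨σ, hσ.1⟩ hσ.2
      rw [one_mul, cocUnit_one] at this
      exact this
    rw [h2, Units.val_one, one_mul] at h1
    exact h1.symm
  · ext
    rw [Units.val_mul, Units.val_mk0, hb g]
    rfl

/-- A `p`-torsion class: the `p`-th power of the cocycle is the coboundary of an `S`-unit. -/
theorem exists_pow_eq (p : ℕ)
    (z : H49.cyc (H49.lcComplex (H42.fieldDatum S L) (H42.resF L (H42.ESx S))) 1)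
    (hz : p • (H49.cls (H49.lcComplex (H42.fieldDatum S L) (H42.resF L (H42.ESx S))) 1).hom z = 0) :
    ∃ e : Qbˣ, e ∈ H42.sUnits S ∧
      ∀ g : ↥L.fixingSubgroup, cocUnit S L z g ^ p * e = (g : GQ) • e := by
  have h1 : (H49.cls (H49.lcComplex (H42.fieldDatum S L) (H42.resF L (H42.ESx S))) 1).hom
      (p • z) = 0 := by
    rw [map_nsmul]
    exact hz
  obtain ⟨a, ha⟩ := (H68.cls_eq_zero_iff_exists (H42.fieldDatum S L) (H42.resF L (H42.ESx S))
    isLC_const (p • z)).mp h1
  refine ⟨esVal S L a, esVal_mem a, fun g => ?_⟩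
  have h2 := congrArg (esVal S L) (ha g)
  have h3 : H68.ofCyc₁ (H42.fieldDatum S L) (H42.resF L (H42.ESx S)) (p • z) g =
      p • H68.ofCyc₁ (H42.fieldDatum S L) (H42.resF L (H42.ESx S)) z g := rfl
  rw [h3, esVal_nsmul, esVal_sub, esVal_ρ] at h2
  show esVal S L (H68.ofCyc₁ (H42.fieldDatum S L) (H42.resF L (H42.ESx S)) z g) ^ p *
    esVal S L a = _
  rw [h2, inv_mul_cancel_right]

variable (S L) in
/-- The relation between a class `x` of `H¹(G_S(L), E_S)` and a unit `a` of `L`: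
`x` is represented by a cocycle `g ↦ g b / b` with `a · e = b ^ p` for an `S`-unit `e`. -/
def H1Rel (p : ℕ) (x : H49.Hlc (H42.fieldDatum S L) (H42.resF L (H42.ESx S)) 1) (a : Lˣ) : Prop :=
  ∃ (z : H49.cyc (H49.lcComplex (H42.fieldDatum S L) (H42.resF L (H42.ESx S))) 1) (e b : Qbˣ),
    (H49.cls (H49.lcComplex (H42.fieldDatum S L) (H42.resF L (H42.ESx S))) 1).hom z = x ∧
    e ∈ H42.sUnits S ∧ (∀ g : ↥L.fixingSubgroup, cocUnit S L z g * b = (g : GQ) • b) ∧
    toQbUnit L a * e = b ^ p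

/-- Every `p`-torsion class is related to an element of `V_S(L)`. -/
theorem exists_h1Rel [NumberField L] (hval : ValE1Statement S) (hL : L.IsUnramifiedOutside S)
    (p : ℕ) (x : H49.Hlc (H42.fieldDatum S L) (H42.resF L (H42.ESx S)) 1) (hx : p • x = 0) :
    ∃ a : Lˣ, a ∈ H87.pDivGroup L (H87.placesOver L S) p ∧ H1Rel S L p x a := by
  obtain ⟨z, rfl⟩ := H49.cls_surjective _ 1 x
  obtain ⟨e, he, hze⟩ := exists_pow_eq p z hx
  obtain ⟨b, K, hK, hbK, hb⟩ := exists_h90 hL z
  have hfix : ∀ g : ↥L.fixingSubgroup, (g : GQ) • (b ^ p * e⁻¹) = b ^ p * e⁻¹ := by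
    intro g
    rw [smul_mul', smul_pow', smul_inv', ← hb g, ← hze g]
    exact comm_aux1 _ _ _ p
  have hmem : ((b ^ p * e⁻¹ : Qbˣ) : Qb) ∈ L := by
    rw [← InfiniteGalois.fixedField_fixingSubgroup L, IntermediateField.mem_fixedField_iff]
    intro σ hσ
    exact congrArg (fun u : Qbˣ => (u : Qb)) (hfix ⟨σ, hσ⟩)
  have ha0 : (⟨((b ^ p * e⁻¹ : Qbˣ) : Qb), hmem⟩ : L) ≠ 0 := fun h =>
    (Units.ne_zero (b ^ p * e⁻¹)) (congrArg Subtype.val h)
  have hab : toQbUnit L (Units.mk0 _ ha0) * e = b ^ p := by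
    have h1 : toQbUnit L (Units.mk0 _ ha0) = b ^ p * e⁻¹ := Units.ext rfl
    rw [h1, inv_mul_cancel_right]
  exact ⟨Units.mk0 _ ha0, mem_pDivGroup_of_pow L hval _ b e he hK hbK hab, z, e, b, rfl, he, hb,
    hab⟩

/-- The relation determines the class, modulo `E_S(L) · Lˣᵖ`. -/
theorem h1Rel_injective [NumberField L] {p : ℕ} [Fact p.Prime]
    (hpS : ExtCitation.pPrime p ∈ S) (hL : L.IsUnramifiedOutside S)
    {x x' : H49.Hlc (H42.fieldDatum S L) (H42.resF L (H42.ESx S)) 1} {a a' : Lˣ}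
    (h : H1Rel S L p x a) (h' : H1Rel S L p x' a')
    (haa : a⁻¹ * a' ∈ H83.sUnit L (H87.placesOver L S) ⊔ H87.powGroup L p) : x = x' := by
  obtain ⟨z, e, b, rfl, he, hb, hab⟩ := h
  obtain ⟨z', e', b', rfl, he', hb', hab'⟩ := h'
  obtain ⟨ε, hε, y, hy, hεy⟩ := Subgroup.mem_sup.mp haa
  obtain ⟨c, rfl⟩ := (H87.mem_powGroup L p y).mp hy
  have h1 : toQbUnit L ε * toQbUnit L c ^ p = (toQbUnit L a)⁻¹ * toQbUnit L a' := by
    rw [← map_pow, ← map_mul, hεy, map_mul, map_inv]
  have hβp : (b' * b⁻¹ * (toQbUnit L c)⁻¹) ^ p = toQbUnit L ε * e' * e⁻¹ :=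
    comm_aux2 hab hab' h1
  have hβS : b' * b⁻¹ * (toQbUnit L c)⁻¹ ∈ H42.sUnits S := by
    apply H42.mem_sUnits_of_pow_mem hpS
    rw [hβp]
    exact mul_mem (mul_mem (toQbUnit_mem_sUnits L hL hε) he') (inv_mem he)
  symm
  refine (H68.cls_eq_cls_iff_exists (H42.fieldDatum S L) (H42.resF L (H42.ESx S)) isLC_const
    z' z).mpr ⟨esMk S L _ hβS, fun g => esVal_injective ?_⟩
  rw [esVal_sub, esVal_sub, esVal_ρ, esVal_esMk]
  show cocUnit S L z' g * (cocUnit S L z g)⁻¹ = _
  have hc : (g : GQ) • toQbUnit L c = toQbUnit L c := by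
    ext
    exact g.2 (c : L)
  rw [smul_mul', smul_mul', smul_inv', smul_inv', hc, ← hb g, ← hb' g]
  exact (comm_aux3 _ _ _ _ _).symm

end Main

section Count

variable (L : IntermediateField ℚ Qb) [NumberField L] (S : Finset Nat.Primes) (p : ℕ)

/-- `W_S(L) = V_S(L) / (E_S(L) · Lˣᵖ)`, the group whose order is `p ^ c L`. -/
abbrev WS : Type :=
  ↥(H87.pDivGroup L (H87.placesOver L S) p) ⧸
    (H83.sUnit L (H87.placesOver L S) ⊔ H87.powGroup L p).subgroupOf
      (H87.pDivGroup L (H87.placesOver L S) p)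

variable {S p}

/-- **(L2-H1)**: the `p`-torsion of `H¹(G_S(L), E_S)` injects into `W_S(L)`. -/
theorem exists_injective_torsion [Fact p.Prime] (hpS : ExtCitation.pPrime p ∈ S)
    (hval : ValE1Statement S) (hL : L.IsUnramifiedOutside S) :
    ∃ ι : {x : H49.Hlc (H42.fieldDatum S L) (H42.resF L (H42.ESx S)) 1 // p • x = 0} → WS L S p,
      Function.Injective ι := by
  choose a ha hrel using fun x : {x : H49.Hlc (H42.fieldDatum S L) (H42.resF L (H42.ESx S)) 1 //
    p • x = 0} => exists_h1Rel hval hL p x.1 x.2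
  refine ⟨fun x => QuotientGroup.mk ⟨a x, ha x⟩, fun x x' h => Subtype.ext ?_⟩
  have h1 := QuotientGroup.eq.mp h
  rw [Subgroup.mem_subgroupOf] at h1
  exact h1Rel_injective hpS hL (hrel x) (hrel x') h1

/-- `W_S(L)` is a group of exponent `p`; if it is finite, its order is `p ^ cIdx`. -/
theorem natCard_WS [Fact p.Prime]
    (hfin : (H83.sUnit L (H87.placesOver L S) ⊔ H87.powGroup L p).relIndex
      (H87.pDivGroup L (H87.placesOver L S) p) ≠ 0) :
    Finite (WS L S p) ∧ Nat.card (WS L S p) = p ^ H87.cIdx L (H87.placesOver L S) p := by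
  have hW : Finite (WS L S p) := Subgroup.index_ne_zero_iff_finite.mp hfin
  refine ⟨hW, ?_⟩
  have hp : IsPGroup p (WS L S p) := by
    intro g
    obtain ⟨v, rfl⟩ := QuotientGroup.mk_surjective g
    refine ⟨1, ?_⟩
    rw [pow_one, ← QuotientGroup.mk_pow, QuotientGroup.eq_one_iff, Subgroup.mem_subgroupOf]
    refine (le_sup_right : H87.powGroup L p ≤ _) ?_
    rw [H87.mem_powGroup]
    exact ⟨(v : Lˣ), rfl⟩
  obtain ⟨n, hn⟩ := (IsPGroup.iff_card (p := p)).mp hp
  have hc : H87.cIdx L (H87.placesOver L S) p = n := by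
    have e : (H83.sUnit L (H87.placesOver L S) ⊔ H87.powGroup L p).relIndex
        (H87.pDivGroup L (H87.placesOver L S) p) = Nat.card (WS L S p) := Subgroup.index_eq_card _
    rw [H87.cIdx, e, hn]
    exact Nat.log_pow (Fact.out : p.Prime).one_lt n
  rw [hc, hn]

/-- **The HASSE count**: a subspace `Y` of an `𝔽_p`-space contained in the image of an additive
map `δ` defined on `H¹(G_S(L), E_S)` has dimension at most `c L = log_p #W_S(L)`. -/
theorem hasse_count [Fact p.Prime] (hpS : ExtCitation.pPrime p ∈ S)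
    (hval : ValE1Statement S) (hL : L.IsUnramifiedOutside S)
    (hfin : (H83.sUnit L (H87.placesOver L S) ⊔ H87.powGroup L p).relIndex
      (H87.pDivGroup L (H87.placesOver L S) p) ≠ 0)
    {M : Type*} [AddCommGroup M] [Module (ZMod p) M]
    (δ : H49.Hlc (H42.fieldDatum S L) (H42.resF L (H42.ESx S)) 1 →+ M)
    (Y : Submodule (ZMod p) M) (hY : ∀ y ∈ Y, ∃ a, δ a = y) :
    FiniteDimensional (ZMod p) Y ∧ Module.finrank (ZMod p) Y ≤ H87.cNum p S L := by
  obtain ⟨ι, hι⟩ := exists_injective_torsion L hpS hval hL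
  obtain ⟨hW, hcard⟩ := natCard_WS L hfin
  rw [H87.cNum_eq]
  exact H87.finrank_le_of_torsion δ Y hY
    (fun x => H74.hlc_torsion (H42.fieldDatum S L)
      (fun F hF => H42.fieldDatum_finiteIndex S L F hF) (H42.resF L (H42.ESx S)) 1 le_rfl x)
    ι hι _ hcard.le

end Count

end

end Fermat.Agent.S55.H84
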