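/-
S55 / Program C, package C9b, leaf (D) = (L2-H1) (helper84): `H70.H1BoundStatement`, unconditional.

`h1Bound` : for `L ⊆ ℚ̄` unramified outside `S ∋ p`, the `p`-torsion of `H¹_lc(G_S(L), E_S)` injects
into the finite group `W_S(L) = V_S(L)/(E_S(L)·Lˣᵖ)` of order `p ^ H87.cNum p S L`
(VERBATIM `H70.H1BoundStatement p S L (H87.cNum p S L)`).

Inputs: `H84.exists_injective_torsion` (Hilbert 90 for level-constant cocycles + the valuation
dictionary), helper56's (VAL-E1) `H56.exists_zpow_unit`, helper87's `H87.relIndex_sup_eq_pow`.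
-/
import Fermat.Agent.S55.H84.H1ES
import Fermat.Agent.S55.H56.ValCore
import Fermat.Agent.S55.H87.CountCard
import Fermat.Agent.S55.H70.GSExports

set_option autoImplicit false

open NumberField IsDedekindDomain

namespace Fermat.Agent.S55.H84

local notation "Qb" => AlgebraicClosure ℚ

/-- (VAL-E1), from helper56's `exists_zpow_unit`. -/
theorem valE1 (S : Finset Nat.Primes) : ValE1Statement S :=
  fun _ hK ℓ hℓ A hA _ hx hx0 => H56.exists_zpow_unit hK ℓ hℓ A hA hx hx0

/-- `W_S(L)` is finite of order `p ^ cNum p S L`. -/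
theorem natCard_WS_eq (L : IntermediateField ℚ Qb) [NumberField L] (S : Finset Nat.Primes)
    (p : ℕ) [Fact p.Prime] :
    Finite (WS L S p) ∧ Nat.card (WS L S p) = p ^ H87.cNum p S L := by
  have h := natCard_WS L (S := S) (p := p)
    (H87.relIndex_sup_ne_zero L (H87.placesOver L S) p (Fact.out : p.Prime).ne_zero)
  rw [H87.cNum_eq]
  exact h

/-- **(D) = (L2-H1)**: `H70.H1BoundStatement p S L (H87.cNum p S L)` for every `L` unramified
outside `S ∋ p`. -/
theorem h1Bound (p : ℕ) [Fact p.Prime] (S : Finset Nat.Primes) (hpS : ExtCitation.pPrime p ∈ S)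
    (L : IntermediateField ℚ Qb) (hL : L.IsUnramifiedOutside S) :
    H70.H1BoundStatement p S L (H87.cNum p S L) := by
  have : NumberField L := H87.numberField_of_finiteDimensional L hL.1
  obtain ⟨ι, hι⟩ := exists_injective_torsion L hpS (valE1 S) hL
  obtain ⟨hW, hcard⟩ := natCard_WS_eq L S p
  exact ⟨WS L S p, hW, ι, hι, hcard.le⟩

/-- The same for the level fields of Route R. -/
theorem h1Bound_of_isLevelField (p : ℕ) [Fact p.Prime] (S : Finset Nat.Primes)
    (hpS : ExtCitation.pPrime p ∈ S) (L : IntermediateField ℚ Qb)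
    (hL : H70.IsLevelField p S L) : H70.H1BoundStatement p S L (H87.cNum p S L) :=
  h1Bound p S hpS L hL.1

/-- **The HASSE count, unconditional**: a subspace `Y` of an `𝔽_p`-space contained in the image
of an additive map defined on `H¹_lc(G_S(L), E_S)` has dimension at most `H87.cNum p S L`. -/
theorem hasse_count' (p : ℕ) [Fact p.Prime] (S : Finset Nat.Primes)
    (hpS : ExtCitation.pPrime p ∈ S) (L : IntermediateField ℚ Qb) (hL : L.IsUnramifiedOutside S)
    {M : Type*} [AddCommGroup M] [Module (ZMod p) M]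
    (δ : H49.Hlc (H42.fieldDatum S L) (H42.resF L (H42.ESx S)) 1 →+ M)
    (Y : Submodule (ZMod p) M) (hY : ∀ y ∈ Y, ∃ a, δ a = y) :
    FiniteDimensional (ZMod p) Y ∧ Module.finrank (ZMod p) Y ≤ H87.cNum p S L := by
  have : NumberField L := H87.numberField_of_finiteDimensional L hL.1
  exact hasse_count L hpS (valE1 S) hL
    (H87.relIndex_sup_ne_zero L (H87.placesOver L S) p (Fact.out : p.Prime).ne_zero) δ Y hY

end Fermat.Agent.S55.H84
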