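/-
S55 (Poitou–Tate), package C8, export (B4) — helper84.

The CUT operator on the finite ideles of a layer `K / k` and the bridge between C5's
localisation maps (decomposition-group presentation, used by the detection statement (D4)
`H88.IdeleDetectStatement`) and the local invariants `H88.linvAt` (C3's presentation).

* `ideleCut k K T : ideleRep k K ⟶ ideleRep k K` : keep the components at the rational primes
  of `T`, replace the other components by `1`;
* `locCoh_diag` (BR) : for a global class `γ ∈ H²(Gal(K/k), Kˣ)` the localisation at `τ` of the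
  idele class `ι_* γ` is `locH2At q k τ γ`, transported along `H35.locUnitsRepIso`;
* `linv_of_cut_eq` (CUT-REC) : if `ι_* β = (cut T)_* ι_* γ` then `linv v β = linv v γ` for the
  places above `T` and `linv v β = 0` for the other places.
-/
import Mathlib
import Fermat.Agent.S55.H35.IdeleH3
import Fermat.Agent.S55.H88.LayerDefs
import Fermat.Agent.S55.H66.C3Main
import Fermat.Agent.S55.H20.LinvIndep

set_option autoImplicit false
set_option linter.unusedSectionVars false

open CategoryTheory groupCohomology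

noncomputable section

namespace Fermat.Agent.S55.H84

open Fermat.Agent.S55.H88

attribute [local instance] factOfPrimes

section Cut

variable (k K : Type) [Field k] [Field K] [Algebra k K]

open Classical in
/-- Keep the components of an idele at the rational primes of `T`; put `1` elsewhere. -/
def ideleCutHom (T : Set Nat.Primes) : ideleGroup K →* ideleGroup K where
  toFun x := ⟨fun q => if q ∈ T then (x : ∀ q : Nat.Primes, (semiLocal (q : ℕ) K)ˣ) q else 1, by
    refine Set.Finite.subset x.2 fun q hq hx => hq ?_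
    show (if q ∈ T then (x : ∀ q : Nat.Primes, (semiLocal (q : ℕ) K)ˣ) q else 1)
      ∈ semiLocalUnits (q : ℕ) K
    split_ifs
    · exact hx
    · exact Subgroup.one_mem _⟩
  map_one' := Subtype.ext (funext fun q => by
    show (if q ∈ T then (1 : (semiLocal (q : ℕ) K)ˣ) else 1) = 1
    split_ifs <;> rfl)
  map_mul' x y := Subtype.ext (funext fun q => by
    show (if q ∈ T then (x : ∀ q : Nat.Primes, (semiLocal (q : ℕ) K)ˣ) q *
        (y : ∀ q : Nat.Primes, (semiLocal (q : ℕ) K)ˣ) q else 1) =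
      (if q ∈ T then (x : ∀ q : Nat.Primes, (semiLocal (q : ℕ) K)ˣ) q else 1) *
        (if q ∈ T then (y : ∀ q : Nat.Primes, (semiLocal (q : ℕ) K)ˣ) q else 1)
    split_ifs
    · rfl
    · rw [mul_one])

open Classical in
variable {K} in
theorem ideleCutHom_of_mem {T : Set Nat.Primes} {q : Nat.Primes} (hq : q ∈ T) (x : ideleGroup K) :
    ((ideleCutHom K T x : ideleGroup K) : ∀ q : Nat.Primes, (semiLocal (q : ℕ) K)ˣ) q
      = (x : ∀ q : Nat.Primes, (semiLocal (q : ℕ) K)ˣ) q := by
  show (if q ∈ T then (x : ∀ q : Nat.Primes, (semiLocal (q : ℕ) K)ˣ) q else 1) = _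
  rw [if_pos hq]

open Classical in
variable {K} in
theorem ideleCutHom_of_notMem {T : Set Nat.Primes} {q : Nat.Primes} (hq : q ∉ T)
    (x : ideleGroup K) :
    ((ideleCutHom K T x : ideleGroup K) : ∀ q : Nat.Primes, (semiLocal (q : ℕ) K)ˣ) q = 1 := by
  show (if q ∈ T then (x : ∀ q : Nat.Primes, (semiLocal (q : ℕ) K)ˣ) q else 1) = _
  rw [if_neg hq]

theorem ideleCutHom_smul (T : Set Nat.Primes) (σ : K ≃ₐ[k] K) (x : ideleGroup K) :
    ideleCutHom K T (σ • x) = σ • ideleCutHom K T x := by
  refine Subtype.ext (funext fun q => ?_)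
  by_cases hq : q ∈ T
  · rw [ideleCutHom_of_mem hq, coe_smul_idele, coe_smul_idele, ideleCutHom_of_mem hq]
  · rw [ideleCutHom_of_notMem hq, coe_smul_idele, ideleCutHom_of_notMem hq, smul_one]

/-- The CUT operator on the ideles, as an endomorphism of the idele representation. -/
def ideleCut (T : Set Nat.Primes) : ideleRep k K ⟶ ideleRep k K :=
  Rep.ofHom ⟨(MonoidHom.toAdditive (ideleCutHom K T)).toIntLinearMap,
    fun σ => LinearMap.ext fun x =>
      congrArg Additive.ofMul (ideleCutHom_smul k K T σ (Additive.toMul x))⟩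

theorem ideleCut_comp_ideleProj_of_mem {T : Set Nat.Primes} {q : Nat.Primes} (hq : q ∈ T) :
    ideleCut k K T ≫ ideleProj k K q = ideleProj k K q := by
  apply Rep.hom_ext
  apply Representation.IntertwiningMap.ext
  refine LinearMap.ext fun x => ?_
  exact congrArg Additive.ofMul (ideleCutHom_of_mem hq (Additive.toMul x))

theorem ideleCut_comp_ideleProj_of_notMem {T : Set Nat.Primes} {q : Nat.Primes} (hq : q ∉ T) :
    ideleCut k K T ≫ ideleProj k K q = 0 := by
  apply Rep.hom_ext
  apply Representation.IntertwiningMap.ext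
  refine LinearMap.ext fun x => ?_
  exact congrArg Additive.ofMul (ideleCutHom_of_notMem hq (Additive.toMul x))

end Cut

section Zero

/-- The map induced on cohomology by the zero morphism is zero. -/
theorem map_zero_hom {R G H : Type} [CommRing R] [Group G] [Group H] (f : G →* H)
    (A : Rep R H) (B : Rep R G) (n : ℕ) :
    groupCohomology.map f (0 : Rep.res f A ⟶ B) n = 0 := by
  have h : cochainsMap f (0 : Rep.res f A ⟶ B) = 0 := by
    ext i x
    rfl
  rw [groupCohomology.map, h]
  exact HomologicalComplex.homologyMap_zero _ _ n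

end Zero

section Bridge

variable (q : ℕ) [Fact q.Prime] (k : Type) {K : Type} [Field k] [Field K] [Algebra k K]
  (τ : K →+* PadicAlgCl q)

/-- `Gal(K_w/k_v) → Gal(K/k)` composed with `D_w → Gal(K_w/k_v)` is the inclusion of `D_w`. -/
theorem locGalToGlobal_decompToGal [Normal k K] (σ : decompGroup q k τ) :
    locGalToGlobal q k τ (H31.decompToGal q k τ σ) = (σ : K ≃ₐ[k] K) := by
  refine AlgEquiv.ext fun x => τ.injective ?_
  have h := congrArg Subtype.val
    (locGalToGlobal_spec q k τ (H31.decompToGal q k τ σ) x)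
  have h2 : decompLift q k τ σ (τ x) = τ (locGalToGlobal q k τ (H31.decompToGal q k τ σ) x) := h
  rw [← h2, decompLift_apply]

end Bridge

section MapIso

variable {R G H L : Type} [CommRing R] [Group G] [Group H] [Group L]

/-- Composition of a functoriality map with the inverse of `groupCohomology.mapIso`. -/
theorem map_comp_mapIso_inv {A : Rep R H} {B : Rep R G} {C : Rep R L} (e : G ≃* H)
    (e' : B.V ≃ₗ[R] A.V) (he : ∀ g, e' ∘ₗ B.ρ g = A.ρ (e g) ∘ₗ e') (f : H →* L)
    (φ : Rep.res f C ⟶ A) (n : ℕ) :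
    ∃ ψ : Rep.res (e : G →* H) A ⟶ B, ψ.hom.toLinearMap = e'.symm.toLinearMap ∧
      groupCohomology.map f φ n ≫ (mapIso e e' he n).inv =
        groupCohomology.map (f.comp (e : G →* H)) ((Rep.resFunctor (e : G →* H)).map φ ≫ ψ) n := by
  refine ⟨Rep.ofHom ⟨e'.symm, fun g ↦ by
    rw [e'.toLinearMap_symm_comp_eq, ← LinearMap.comp_assoc]
    simp [he, LinearMap.comp_assoc]⟩, rfl, ?_⟩
  rw [groupCohomology.map_comp]
  rfl

end MapIso

section BridgeCoh

variable (q : Nat.Primes) (k : Type) {K : Type} [Field k] [Field K] [Algebra k K]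
  [NumberField K] [FiniteDimensional k K] [Normal k K]
  (τ : K →+* PadicAlgCl (q : ℕ)) [FiniteDimensional ℚ_[(q : ℕ)] (locBase (q : ℕ) k τ)]

/-- **(BR), morphism form.**  Localisation (C5's presentation) of the diagonal idele classes is
C8's localisation `locH2At` followed by the change of presentation. -/
theorem diag_proj_locCohMap :
    groupCohomology.map (MonoidHom.id (K ≃ₐ[k] K)) (ideleDiag k K) 2 ≫
        groupCohomology.map (MonoidHom.id (K ≃ₐ[k] K)) (ideleProj k K q) 2 ≫
          locCohMap (q : ℕ) k τ 2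
      = groupCohomology.map (locGalToGlobal (q : ℕ) k τ) (globalToLocUnits (q : ℕ) k τ) 2 ≫
        (H35.locUnitsRepIso (q : ℕ) k τ 2).inv := by
  obtain ⟨ψ, hψ, h⟩ := map_comp_mapIso_inv
    (A := Rep.ofAlgebraAutOnUnits (locBase (q : ℕ) k τ) (locExt (q : ℕ) k τ))
    (B := locUnitsRep (q : ℕ) k τ) (H35.decompGalEquiv (q : ℕ) k τ)
    (H35.locUnitsMulEquiv (q : ℕ) k τ).toAdditive.toIntLinearEquiv (fun g => rfl)
    (locGalToGlobal (q : ℕ) k τ) (globalToLocUnits (q : ℕ) k τ) 2
  refine Eq.trans ?_ h.symm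
  have hL : locCohMap (q : ℕ) k τ 2 = groupCohomology.map (A := semiLocalRep (q : ℕ) k K)
      (B := locUnitsRep (q : ℕ) k τ) (decompGroup (q : ℕ) k τ).subtype
      (semiLocalToLoc (q : ℕ) k τ) 2 := rfl
  rw [hL, ← groupCohomology.map_comp, ← groupCohomology.map_comp]
  refine groupCohomology.map_congr (A := Rep.ofAlgebraAutOnUnits k K)
    (B := locUnitsRep (q : ℕ) k τ) ?_ ?_ 2
  · refine MonoidHom.ext fun σ => ?_
    exact (locGalToGlobal_decompToGal (q : ℕ) k τ σ).symm
  · refine LinearMap.ext fun u => ?_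
    have h2 := congrArg (fun F : _ →ₗ[ℤ] _ => F ((globalToLocUnits (q : ℕ) k τ).hom u)) hψ
    refine Eq.trans ?_ h2.symm
    exact congrArg Additive.ofMul (Units.ext rfl)

end BridgeCoh

section Maps

variable (k K : Type) [Field k] [Field K] [Algebra k K]

/-- `ι_* : H²(Gal(K/k), Kˣ) → H²(Gal(K/k), J_K)`. -/
def ideleDiagH2 [NumberField K] :
    groupCohomology (Rep.ofAlgebraAutOnUnits k K) 2 →+ groupCohomology (ideleRep k K) 2 :=
  (groupCohomology.map (A := Rep.ofAlgebraAutOnUnits k K) (B := ideleRep k K)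
    (MonoidHom.id (K ≃ₐ[k] K)) (ideleDiag k K) 2).hom.toAddMonoidHom

/-- The map induced by the CUT operator on `H²(Gal(K/k), J_K)`. -/
def ideleCutH2 (T : Set Nat.Primes) :
    groupCohomology (ideleRep k K) 2 →+ groupCohomology (ideleRep k K) 2 :=
  (groupCohomology.map (A := ideleRep k K) (B := ideleRep k K)
    (MonoidHom.id (K ≃ₐ[k] K)) (ideleCut k K T) 2).hom.toAddMonoidHom

/-- The localisation `H²(Gal(K/k), J_K) → H²(D_w, K_wˣ)` at the embedding `τ` (the maps of the
detection statement (D4), `H88.IdeleDetectStatement`). -/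
def ideleLoc (q : Nat.Primes) (τ : K →+* PadicAlgCl (q : ℕ)) :
    groupCohomology (ideleRep k K) 2 →+ groupCohomology (locUnitsRep (q : ℕ) k τ) 2 :=
  (locCohMap (q : ℕ) k τ 2).hom.toAddMonoidHom.comp
    (groupCohomology.map (A := ideleRep k K) (B := semiLocalRep (q : ℕ) k K)
      (MonoidHom.id (K ≃ₐ[k] K)) (ideleProj k K q) 2).hom.toAddMonoidHom

theorem ideleLoc_apply (q : Nat.Primes) (τ : K →+* PadicAlgCl (q : ℕ))
    (x : groupCohomology (ideleRep k K) 2) :
    ideleLoc k K q τ x = (locCohMap (q : ℕ) k τ 2).hom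
      ((groupCohomology.map (MonoidHom.id (K ≃ₐ[k] K)) (ideleProj k K q) 2).hom x) := rfl

/-- Localisation after CUT, at a prime of `T`. -/
theorem ideleLoc_cut_of_mem {T : Set Nat.Primes} {q : Nat.Primes} (hq : q ∈ T)
    (τ : K →+* PadicAlgCl (q : ℕ)) (x : groupCohomology (ideleRep k K) 2) :
    ideleLoc k K q τ (ideleCutH2 k K T x) = ideleLoc k K q τ x := by
  have h := groupCohomology.map_id_comp (A := ideleRep k K) (B := ideleRep k K)
    (C := semiLocalRep (q : ℕ) k K) (ideleCut k K T) (ideleProj k K q) 2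
  rw [ideleCut_comp_ideleProj_of_mem k K hq] at h
  have h2 := congrArg (fun F => F.hom x) h
  exact congrArg (fun z => (locCohMap (q : ℕ) k τ 2).hom z) h2.symm

/-- Localisation after CUT, at a prime outside `T`. -/
theorem ideleLoc_cut_of_notMem {T : Set Nat.Primes} {q : Nat.Primes} (hq : q ∉ T)
    (τ : K →+* PadicAlgCl (q : ℕ)) (x : groupCohomology (ideleRep k K) 2) :
    ideleLoc k K q τ (ideleCutH2 k K T x) = 0 := by
  have h := groupCohomology.map_id_comp (A := ideleRep k K) (B := ideleRep k K)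
    (C := semiLocalRep (q : ℕ) k K) (ideleCut k K T) (ideleProj k K q) 2
  rw [ideleCut_comp_ideleProj_of_notMem k K hq] at h
  have h0 := map_zero_hom (MonoidHom.id (K ≃ₐ[k] K)) (ideleRep k K) (semiLocalRep (q : ℕ) k K) 2
  have h2 := congrArg (fun F => F.hom x) (h0.symm.trans h)
  have h3 : (groupCohomology.map (MonoidHom.id (K ≃ₐ[k] K)) (ideleProj k K q) 2).hom
      (ideleCutH2 k K T x) = 0 := h2.symm
  rw [ideleLoc_apply, h3, map_zero]

end Maps

section CutRec

variable (k K : Type) [Field k] [Field K] [Algebra k K] [NumberField k] [NumberField K]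
  [FiniteDimensional k K] [Normal k K]

/-- **(BR).**  The localisation (in the sense of (D4)) of the idele class `ι_* γ` of a global
class vanishes iff C8's localisation `locH2At` of `γ` vanishes. -/
theorem ideleLoc_diag_eq_zero_iff (q : Nat.Primes) (τ : K →+* PadicAlgCl (q : ℕ))
    (γ : groupCohomology (Rep.ofAlgebraAutOnUnits k K) 2) :
    ideleLoc k K q τ (ideleDiagH2 k K γ) = 0 ↔ locH2At (q : ℕ) k τ γ = 0 := by
  have : FiniteDimensional ℚ_[(q : ℕ)] (locBase (q : ℕ) k τ) :=
    locFieldFiniteStatement_holds (q : ℕ) k (τ.comp (algebraMap k K))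
  have h : ideleLoc k K q τ (ideleDiagH2 k K γ)
      = (H35.locUnitsRepIso (q : ℕ) k τ 2).inv.hom (locH2At (q : ℕ) k τ γ) :=
    congrArg (fun F => F.hom γ) (diag_proj_locCohMap q k τ)
  rw [h]
  constructor
  · intro h0
    have h1 := congrArg (fun z => (H35.locUnitsRepIso (q : ℕ) k τ 2).hom.hom z) h0
    have h3 : (H35.locUnitsRepIso (q : ℕ) k τ 2).hom.hom
        ((H35.locUnitsRepIso (q : ℕ) k τ 2).inv.hom (locH2At (q : ℕ) k τ γ))
          = locH2At (q : ℕ) k τ γ :=
      congrArg (fun F => F.hom (locH2At (q : ℕ) k τ γ))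
        (H35.locUnitsRepIso (q : ℕ) k τ 2).inv_hom_id
    exact h3.symm.trans (h1.trans (map_zero _))
  · intro h0
    rw [h0, map_zero]

/-- The local invariant vanishes iff the localisation vanishes (`H66.c3_inv`: `inv` is
injective). -/
theorem linvAt_eq_zero_iff (q : Nat.Primes) (τ : K →+* PadicAlgCl (q : ℕ))
    (γ : groupCohomology (Rep.ofAlgebraAutOnUnits k K) 2) :
    linvAt (q : ℕ) k τ γ = 0 ↔ locH2At (q : ℕ) k τ γ = 0 := by
  have : FiniteDimensional ℚ_[(q : ℕ)] (locBase (q : ℕ) k τ) :=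
    locFieldFiniteStatement_holds (q : ℕ) k (τ.comp (algebraMap k K))
  have hinj : Function.Injective (H66.inv (q : ℕ) (locExt (q : ℕ) k τ)) :=
    (H66.c3_inv (q : ℕ) (locBase (q : ℕ) k τ) (locExt (q : ℕ) k τ)).2.1
  constructor
  · intro h
    apply hinj
    rw [map_zero]
    exact h
  · intro h
    show H66.inv (q : ℕ) (locExt (q : ℕ) k τ) (locH2At (q : ℕ) k τ γ) = 0
    rw [h, map_zero]

/-- **(CUT-REC), localisation form, at a prime of `T`.** -/
theorem locH2At_of_cut_eq_of_mem {T : Set Nat.Primes}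
    (β γ : groupCohomology (Rep.ofAlgebraAutOnUnits k K) 2)
    (h : ideleDiagH2 k K β = ideleCutH2 k K T (ideleDiagH2 k K γ))
    {q : Nat.Primes} (hq : q ∈ T) (τ : K →+* PadicAlgCl (q : ℕ)) :
    locH2At (q : ℕ) k τ β = locH2At (q : ℕ) k τ γ := by
  have h1 : ideleLoc k K q τ (ideleDiagH2 k K (β - γ)) = 0 := by
    rw [map_sub, map_sub, h, ideleLoc_cut_of_mem k K hq, sub_self]
  have h2 := (ideleLoc_diag_eq_zero_iff k K q τ (β - γ)).1 h1
  rw [map_sub] at h2
  exact sub_eq_zero.1 h2

/-- **(CUT-REC), localisation form, at a prime outside `T`.** -/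
theorem locH2At_of_cut_eq_of_notMem {T : Set Nat.Primes}
    (β γ : groupCohomology (Rep.ofAlgebraAutOnUnits k K) 2)
    (h : ideleDiagH2 k K β = ideleCutH2 k K T (ideleDiagH2 k K γ))
    {q : Nat.Primes} (hq : q ∉ T) (τ : K →+* PadicAlgCl (q : ℕ)) :
    locH2At (q : ℕ) k τ β = 0 := by
  have h1 : ideleLoc k K q τ (ideleDiagH2 k K β) = 0 := by
    rw [h, ideleLoc_cut_of_notMem k K hq]
  exact (ideleLoc_diag_eq_zero_iff k K q τ β).1 h1

/-- **(CUT-REC).**  If `ι_* β = (cut T)_* ι_* γ` then `β` and `γ` have the same local invariants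
at the places above the primes of `T`. -/
theorem linv_of_cut_eq_of_mem {T : Set Nat.Primes}
    (β γ : groupCohomology (Rep.ofAlgebraAutOnUnits k K) 2)
    (h : ideleDiagH2 k K β = ideleCutH2 k K T (ideleDiagH2 k K γ))
    (v : FinPlace k) (hv : v.1 ∈ T) :
    (layerOf k K).linv v β = (layerOf k K).linv v γ := by
  show H66.inv (v.1 : ℕ) (locExt (v.1 : ℕ) k (v.ext K)) (locH2At (v.1 : ℕ) k (v.ext K) β) =
    H66.inv (v.1 : ℕ) (locExt (v.1 : ℕ) k (v.ext K)) (locH2At (v.1 : ℕ) k (v.ext K) γ)
  rw [locH2At_of_cut_eq_of_mem k K β γ h hv (v.ext K)]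

/-- **(CUT-REC).**  If `ι_* β = (cut T)_* ι_* γ` then the local invariants of `β` vanish at the
places that are not above a prime of `T`. -/
theorem linv_of_cut_eq_of_notMem {T : Set Nat.Primes}
    (β γ : groupCohomology (Rep.ofAlgebraAutOnUnits k K) 2)
    (h : ideleDiagH2 k K β = ideleCutH2 k K T (ideleDiagH2 k K γ))
    (v : FinPlace k) (hv : v.1 ∉ T) :
    (layerOf k K).linv v β = 0 := by
  show H66.inv (v.1 : ℕ) (locExt (v.1 : ℕ) k (v.ext K)) (locH2At (v.1 : ℕ) k (v.ext K) β) = 0
  rw [locH2At_of_cut_eq_of_notMem k K β γ h hv (v.ext K), map_zero]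

/-- If the idele class `ι_* β` of a global class vanishes, all local invariants of `β` vanish
(the step "`H¹(C) = 0` from the Hasse principle and `H¹(J) = 0`"). -/
theorem linv_eq_zero_of_diag_eq_zero (β : groupCohomology (Rep.ofAlgebraAutOnUnits k K) 2)
    (h : ideleDiagH2 k K β = 0) (v : FinPlace k) : (layerOf k K).linv v β = 0 := by
  have h1 : ideleLoc k K v.1 (v.ext K) (ideleDiagH2 k K β) = 0 := by rw [h, map_zero]
  have h2 := (ideleLoc_diag_eq_zero_iff k K v.1 (v.ext K) β).1 h1
  show H66.inv (v.1 : ℕ) (locExt (v.1 : ℕ) k (v.ext K)) (locH2At (v.1 : ℕ) k (v.ext K) β) = 0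
  rw [h2, map_zero]

end CutRec

end Fermat.Agent.S55.H84
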