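/-
S55 (Poitou–Tate), package C8, export (B4) — helper84.

Detection of diagonal idele classes by the local invariants `linv`, and (CUT-GLOBAL):

* `locH2At_eq_zero_of_linv` : the localisation of a global class at an ARBITRARY embedding
  vanishes as soon as its local invariant at the chosen embedding of the place below vanishes
  (`H20.linvIndep` + injectivity of `H66.inv`);
* `diag_eq_cut_diag_of_linv` (D4 in `linv` form) : if `linv v β = linv v γ` for the places above
  `T` and `linv v β = 0` for the other places, then `ι_* β = (cut T)_* ι_* γ` in `H²(G, J_K)`;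
* `exists_diag_eq_cut_diag` (CUT-GLOBAL) : for a layer with the existence property
  `Layer.Ex (locDegAt k K)` (cyclic layers of `p`-power degree: `H29.CyclicExStatement`), if the
  local invariants of `γ` above `T` add up to `0`, then `(cut T)_* ι_* γ` is the idele class of a
  global class.
-/
import Fermat.Agent.S55.H84.IdeleCut
import Fermat.Agent.S55.H39.IdeleFinal
import Fermat.Agent.S55.H28.LinvFinStatement
import Fermat.Agent.S55.H29.C8Ex

set_option autoImplicit false
set_option linter.unusedSectionVars false

open CategoryTheory groupCohomology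

noncomputable section

namespace Fermat.Agent.S55.H84

open Fermat.Agent.S55.H88

attribute [local instance] factOfPrimes

variable (k K : Type) [Field k] [Field K] [Algebra k K] [NumberField k] [NumberField K]
  [FiniteDimensional k K] [Normal k K]

/-- The finite place of `k` below an embedding of `K`. -/
def placeBelow (q : Nat.Primes) (τ : K →+* PadicAlgCl (q : ℕ)) : FinPlace k :=
  ⟨q, placeOf (q : ℕ) (τ.comp (algebraMap k K))⟩

/-- The local invariant at an arbitrary embedding is the local invariant at the chosen embedding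
of the place below (LINV-INDEP). -/
theorem linvAt_eq_linv_placeBelow (q : Nat.Primes) (τ : K →+* PadicAlgCl (q : ℕ))
    (γ : groupCohomology (Rep.ofAlgebraAutOnUnits k K) 2) :
    linvAt (q : ℕ) k τ γ = (layerOf k K).linv (placeBelow k K q τ) γ := by
  have hrel : (placeSetoid (q : ℕ) k).r
      (((placeBelow k K q τ).ext K).comp (algebraMap k K)) (τ.comp (algebraMap k K)) := by
    rw [FinPlace.ext_comp]
    exact Quotient.mk_out (s := placeSetoid (q : ℕ) k) (τ.comp (algebraMap k K))
  have h := H20.linvIndep k K (q : ℕ) ((placeBelow k K q τ).ext K) τ hrel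
  exact (congrArg (fun F => F γ) h).symm

/-- The localisation of a global class at an arbitrary embedding above `q` vanishes when its
local invariants at the places above `q` vanish. -/
theorem locH2At_eq_zero_of_linv (γ : groupCohomology (Rep.ofAlgebraAutOnUnits k K) 2)
    (q : Nat.Primes) (τ : K →+* PadicAlgCl (q : ℕ))
    (h : ∀ v : FinPlace k, v.1 = q → (layerOf k K).linv v γ = 0) :
    locH2At (q : ℕ) k τ γ = 0 := by
  apply (linvAt_eq_zero_iff k K q τ γ).1
  rw [linvAt_eq_linv_placeBelow]
  exact h _ rfl

/-- The local invariant of a class is killed by the local degree. -/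
theorem locDegAt_smul_linv (γ : groupCohomology (Rep.ofAlgebraAutOnUnits k K) 2)
    (v : FinPlace k) : H29.locDegAt k K v • (layerOf k K).linv v γ = 0 := by
  have : FiniteDimensional ℚ_[(v.1 : ℕ)] (locBase (v.1 : ℕ) k (v.ext K)) :=
    locFieldFiniteStatement_holds (v.1 : ℕ) k ((v.ext K).comp (algebraMap k K))
  exact ((H66.c3_inv (v.1 : ℕ) (locBase (v.1 : ℕ) k (v.ext K))
    (locExt (v.1 : ℕ) k (v.ext K))).2.2 _).1 ⟨locH2At (v.1 : ℕ) k (v.ext K) γ, rfl⟩

/-- **(D4) in `linv` form.**  If `linv v β = linv v γ` at the places above the primes of `T` and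
`linv v β = 0` at the other places, then `ι_* β = (cut T)_* ι_* γ` in `H²(Gal(K/k), J_K)`. -/
theorem diag_eq_cut_diag_of_linv (T : Set Nat.Primes)
    (β γ : groupCohomology (Rep.ofAlgebraAutOnUnits k K) 2)
    (hT : ∀ v : FinPlace k, v.1 ∈ T → (layerOf k K).linv v β = (layerOf k K).linv v γ)
    (hN : ∀ v : FinPlace k, v.1 ∉ T → (layerOf k K).linv v β = 0) :
    ideleDiagH2 k K β = ideleCutH2 k K T (ideleDiagH2 k K γ) := by
  rw [← sub_eq_zero]
  refine H39.ideleDetectStatement k K _ fun q τ => ?_
  show ideleLoc k K q τ (ideleDiagH2 k K β - ideleCutH2 k K T (ideleDiagH2 k K γ)) = 0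
  by_cases hq : q ∈ T
  · rw [map_sub, ideleLoc_cut_of_mem k K hq, ← map_sub, ← map_sub]
    apply (ideleLoc_diag_eq_zero_iff k K q τ (β - γ)).2
    refine locH2At_eq_zero_of_linv k K (β - γ) q τ fun v hv => ?_
    have h1 : (layerOf k K).linv v (β - γ) =
        (layerOf k K).linv v β - (layerOf k K).linv v γ := map_sub ((layerOf k K).linv v) β γ
    rw [h1, hT v (hv ▸ hq), sub_self]
  · rw [map_sub, ideleLoc_cut_of_notMem k K hq, sub_zero]
    apply (ideleLoc_diag_eq_zero_iff k K q τ β).2
    exact locH2At_eq_zero_of_linv k K β q τ fun v hv => hN v (hv ▸ hq)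

open Classical in
/-- **(CUT-GLOBAL).**  For a layer with the existence property (`H29.Layer.Ex` for the local
degrees: cyclic layers of `p`-power degree), if the local invariants of `γ` at the places above
the primes of `T` add up to `0`, then `(cut T)_* ι_* γ` is the idele class of a global class
(which has the local invariants of `γ` above `T` and `0` elsewhere). -/
theorem exists_diag_eq_cut_diag [IsGalois k K]
    (hEx : (layerOf k K).Ex (H29.locDegAt k K)) (T : Set Nat.Primes)
    (γ : groupCohomology (Rep.ofAlgebraAutOnUnits k K) 2)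
    (hsum : ∑ᶠ v : FinPlace k, (if v.1 ∈ T then (layerOf k K).linv v γ else 0) = 0) :
    ∃ β : groupCohomology (Rep.ofAlgebraAutOnUnits k K) 2,
      ideleDiagH2 k K β = ideleCutH2 k K T (ideleDiagH2 k K γ) ∧
      (∀ v : FinPlace k, v.1 ∈ T → (layerOf k K).linv v β = (layerOf k K).linv v γ) ∧
      (∀ v : FinPlace k, v.1 ∉ T → (layerOf k K).linv v β = 0) := by
  have hfin : (Function.support fun v : FinPlace k =>
      (if v.1 ∈ T then (layerOf k K).linv v γ else 0)).Finite := by
    refine (H28.linvFinStatement k K γ).subset fun v hv => ?_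
    have hv' : (if v.1 ∈ T then (layerOf k K).linv v γ else 0) ≠ 0 := hv
    show (layerOf k K).linv v γ ≠ 0
    intro h0
    apply hv'
    rw [h0, ite_self]
  have hd : ∀ v : FinPlace k, H29.locDegAt k K v •
      (if v.1 ∈ T then (layerOf k K).linv v γ else 0) = 0 := by
    intro v
    split_ifs
    · exact locDegAt_smul_linv k K γ v
    · exact smul_zero _
  obtain ⟨β, hβ⟩ := hEx _ hfin hd hsum
  have hT : ∀ v : FinPlace k, v.1 ∈ T → (layerOf k K).linv v β = (layerOf k K).linv v γ :=
    fun v hv => by rw [hβ v, if_pos hv]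
  have hN : ∀ v : FinPlace k, v.1 ∉ T → (layerOf k K).linv v β = 0 :=
    fun v hv => by rw [hβ v, if_neg hv]
  exact ⟨β, diag_eq_cut_diag_of_linv k K T β γ hT hN, hT, hN⟩

end Fermat.Agent.S55.H84
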